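import Mathlib
import Fermat.Prelude.Def_AlgebraicCurve_CanonicalDivisor
import Fermat.Prelude.Def_AlgebraicCurve_IsCurveOver

/-! # S24 layer (A), file 0: basic API for `AlgebraicCurve.Place` (any `K`, `F`).

`v.ord 0 = 0` by convention, so most lemmas need `f ≠ 0`. -/

set_option autoImplicit false

namespace Fermat.Agent.S24.FF

open AlgebraicCurve

variable {K F : Type*} [Field K] [Field F] [Algebra K F] (v : Place K F)

/-- zeros of `f` -/
def zerosOf (K : Type*) {F : Type*} [Field K] [Field F] [Algebra K F] (f : F) : Set (Place K F) :=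
  {v | 0 < v.ord f}

/-- poles of `f` -/
def polesOf (K : Type*) {F : Type*} [Field K] [Field F] [Algebra K F] (f : F) : Set (Place K F) :=
  {v | v.ord f < 0}

theorem ord_nonneg_of_mem {f : F} (hf : f ∈ v.toValuationSubring) : 0 ≤ v.ord f := by
  rcases eq_or_ne f 0 with rfl | hf0
  · simp
  obtain ⟨π, hπ⟩ := IsDiscreteValuationRing.exists_irreducible v.toValuationSubring
  obtain ⟨n, u, hu⟩ :=
    IsDiscreteValuationRing.eq_unit_mul_pow_irreducible
      (x := (⟨f, hf⟩ : v.toValuationSubring)) (by simpa [Subtype.ext_iff] using hf0) hπ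
  have hcoe : f = ((u : v.toValuationSubring) : F) * ((π : F) ^ (n : ℤ)) := by
    have h := congrArg (Subtype.val) hu
    push_cast at h
    rw [zpow_natCast]
    exact h
  rw [hcoe, v.ord_unit_smul_zpow u hπ (n : ℤ)]
  exact Int.natCast_nonneg n

theorem mem_of_ord_nonneg {f : F} (h : 0 ≤ v.ord f) : f ∈ v.toValuationSubring := by
  rcases eq_or_ne f 0 with rfl | hf
  · exact zero_mem _
  obtain ⟨π, hπ⟩ := IsDiscreteValuationRing.exists_irreducible v.toValuationSubring
  obtain ⟨u, hu⟩ := v.exists_unit_mul_zpow hf hπ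
  rw [hu, show v.ord f = (((v.ord f).toNat : ℕ) : ℤ) from (Int.toNat_of_nonneg h).symm,
    zpow_natCast]
  exact mul_mem (u : v.toValuationSubring).2 (pow_mem (π : v.toValuationSubring).2 _)

theorem mem_iff_ord_nonneg {f : F} (_hf : f ≠ 0) : f ∈ v.toValuationSubring ↔ 0 ≤ v.ord f :=
  ⟨ord_nonneg_of_mem v, mem_of_ord_nonneg v⟩

theorem ord_neg (f : F) : v.ord (-f) = v.ord f := by
  simp only [Place.ord, Valuation.map_neg]

theorem ord_pow (f : F) (n : ℕ) : v.ord (f ^ n) = n * v.ord f := by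
  have := v.ord_zpow f (n : ℤ)
  rwa [zpow_natCast] at this

theorem ord_div {f g : F} (hf : f ≠ 0) (hg : g ≠ 0) : v.ord (f / g) = v.ord f - v.ord g := by
  rw [div_eq_mul_inv, v.ord_mul hf (inv_ne_zero hg), v.ord_inv, sub_eq_add_neg]

/-- `f` is a unit of `O_v` iff `ord f = 0` (`f ≠ 0`). -/
theorem ord_eq_zero_iff_isUnit {f : F} (hf : f ≠ 0) :
    v.ord f = 0 ↔ ∃ u : v.toValuationSubringˣ, ((u : v.toValuationSubring) : F) = f := by
  constructor
  · intro h
    obtain ⟨π, hπ⟩ := IsDiscreteValuationRing.exists_irreducible v.toValuationSubring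
    obtain ⟨u, hu⟩ := v.exists_unit_mul_zpow hf hπ
    refine ⟨u, ?_⟩
    rw [hu, h, zpow_zero, mul_one]
  · rintro ⟨u, rfl⟩
    exact v.ord_coe_unit u

theorem ord_algebraMap (a : K) : v.ord (algebraMap K F a) = 0 := by
  rcases eq_or_ne a 0 with rfl | ha
  · simp
  have h1 : 0 ≤ v.ord (algebraMap K F a) := ord_nonneg_of_mem v (v.algebraMap_mem' a)
  have h2 : 0 ≤ v.ord (algebraMap K F a⁻¹) := ord_nonneg_of_mem v (v.algebraMap_mem' a⁻¹)
  rw [map_inv₀, v.ord_inv] at h2
  omega

theorem ord_pos_iff_mem_maximalIdeal (f : v.toValuationSubring) (hf : f ≠ 0) :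
    0 < v.ord (f : F) ↔ f ∈ IsLocalRing.maximalIdeal v.toValuationSubring := by
  have hfF : (f : F) ≠ 0 := by simpa [ne_eq, ZeroMemClass.coe_eq_zero] using hf
  have h0 : 0 ≤ v.ord (f : F) := ord_nonneg_of_mem v f.2
  rw [IsLocalRing.mem_maximalIdeal, mem_nonunits_iff]
  constructor
  · intro hpos hu
    have := v.ord_coe_unit hu.unit
    rw [IsUnit.unit_spec] at this
    omega
  · intro hnu
    rcases lt_or_eq_of_le h0 with h | h
    · exact h
    · exfalso
      obtain ⟨u, hu⟩ := (ord_eq_zero_iff_isUnit v hfF).mp h.symm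
      apply hnu
      have : (u : v.toValuationSubring) = f := Subtype.ext hu
      rw [← this]
      exact u.isUnit

/-- ultrametric inequality -/
theorem min_le_ord_add {f g : F} (hfg : f + g ≠ 0) (hf : f ≠ 0) (hg : g ≠ 0) :
    min (v.ord f) (v.ord g) ≤ v.ord (f + g) := by
  -- wlog ord f ≤ ord g; then g / f ∈ O_v, so 1 + g / f ∈ O_v, so ord (f + g) ≥ ord f
  wlog h : v.ord f ≤ v.ord g generalizing f g
  · have := this (by rwa [add_comm]) hg hf (le_of_not_ge h)
    rwa [min_comm, add_comm]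
  rw [min_eq_left h]
  have h1 : 0 ≤ v.ord (g / f) := by rw [ord_div v hg hf]; omega
  have h2 : (1 + g / f) ∈ v.toValuationSubring :=
    add_mem (one_mem _) (mem_of_ord_nonneg v h1)
  have h3 : 0 ≤ v.ord (1 + g / f) := ord_nonneg_of_mem v h2
  have h4 : f + g = f * (1 + g / f) := by field_simp
  have h5 : (1 + g / f) ≠ 0 := by
    intro h0
    rw [h0, mul_zero] at h4
    exact hfg h4
  rw [h4, v.ord_mul hf h5]
  omega

theorem ord_add_eq_of_lt {f g : F} (hf : f ≠ 0) (hg : g ≠ 0) (h : v.ord f < v.ord g) :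
    v.ord (f + g) = v.ord f := by
  have hfg : f + g ≠ 0 := by
    intro h0
    have : g = -f := by linear_combination h0
    rw [this, ord_neg v] at h
    exact lt_irrefl _ h
  have h1 := min_le_ord_add v hfg hf hg
  rw [min_eq_left h.le] at h1
  -- f = (f + g) + (-g)
  have hng : -g ≠ 0 := neg_ne_zero.mpr hg
  have h2 := min_le_ord_add v (f := f + g) (g := -g) (by simpa using hf) hfg hng
  rw [ord_neg v] at h2
  have h3 : f + g + -g = f := by ring
  rw [h3] at h2
  rcases le_total (v.ord (f + g)) (v.ord g) with h4 | h4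
  · rw [min_eq_left h4] at h2
    omega
  · rw [min_eq_right h4] at h2
    omega

/-- a uniformizer: any element of order one -/
theorem irreducible_of_ord_eq_one (t : v.toValuationSubring) (ht : v.ord (t : F) = 1) :
    Irreducible t := by
  obtain ⟨π, hπ⟩ := IsDiscreteValuationRing.exists_irreducible v.toValuationSubring
  have htF : (t : F) ≠ 0 := by
    intro h0
    rw [h0, v.ord_zero] at ht
    exact zero_ne_one ht
  obtain ⟨u, hu⟩ := v.exists_unit_mul_zpow htF hπ
  rw [ht, zpow_one] at hu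
  have : t = (u : v.toValuationSubring) * π := Subtype.ext (by rw [hu]; rfl)
  rw [this]
  exact (irreducible_units_mul u).mpr hπ

theorem exists_ord_eq_one : ∃ t : F, v.ord t = 1 := by
  obtain ⟨π, hπ⟩ := IsDiscreteValuationRing.exists_irreducible v.toValuationSubring
  exact ⟨π, v.ord_coe_irreducible hπ⟩

/-- every nonzero `f` is `u * t ^ ord f` for a uniformizer `t`. -/
theorem exists_unit_mul_zpow' {t : F} (ht : v.ord t = 1) {f : F} (hf : f ≠ 0) :
    ∃ u : F, v.ord u = 0 ∧ u ≠ 0 ∧ f = u * t ^ v.ord f := by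
  have ht0 : t ≠ 0 := by
    intro h0
    rw [h0, v.ord_zero] at ht
    exact zero_ne_one ht
  have hz : t ^ v.ord f ≠ 0 := zpow_ne_zero _ ht0
  refine ⟨f / t ^ v.ord f, ?_, div_ne_zero hf hz, by field_simp⟩
  rw [ord_div v hf hz, v.ord_zpow, ht, mul_one, sub_self]

/-- two places with `O_v ≤ O_w` are equal (DVRs are maximal subrings). -/
theorem eq_of_le {v w : Place K F} (h : v.toValuationSubring ≤ w.toValuationSubring) : v = w := by
  apply Place.ext
  apply le_antisymm h
  intro f hf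
  by_contra hfv
  -- f ∉ O_v, so f⁻¹ ∈ 𝔪_v, ord_v f < 0
  have hf0 : f ≠ 0 := fun h0 => hfv (h0 ▸ zero_mem _)
  have hneg : v.ord f < 0 := by
    by_contra hge
    exact hfv (mem_of_ord_nonneg v (not_lt.mp hge))
  -- every g ∈ F lies in O_w: g * f^n ... : choose n with ord_v (g * f⁻¹^n) ≥ 0
  apply w.ne_top'
  rw [eq_top_iff]
  intro g _
  rcases eq_or_ne g 0 with rfl | hg0
  · exact zero_mem _
  -- n := max 0 (-ord_v g); then ord_v (g * (f⁻¹)^n) = ord_v g + n * (-ord_v f) ≥ ord_v g + n ≥ 0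
  set n : ℕ := (-(v.ord g)).toNat with hn
  have hfi : f⁻¹ ≠ 0 := inv_ne_zero hf0
  have h1 : 0 ≤ v.ord (g * f⁻¹ ^ n) := by
    rw [v.ord_mul hg0 (pow_ne_zero _ hfi), ord_pow v, v.ord_inv]
    have h2 : (-(v.ord g)) ≤ (n : ℤ) := Int.self_le_toNat _
    have h3 : (n : ℤ) ≤ n * (-(v.ord f)) := by
      have : (1 : ℤ) ≤ -(v.ord f) := by omega
      nlinarith [Int.natCast_nonneg n]
    omega
  have h2 : g * f⁻¹ ^ n ∈ w.toValuationSubring := h (mem_of_ord_nonneg v h1)
  have h3 : g = (g * f⁻¹ ^ n) * f ^ n := by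
    rw [mul_assoc, ← mul_pow, inv_mul_cancel₀ hf0, one_pow, mul_one]
  rw [h3]
  exact mul_mem h2 (pow_mem hf _)

/-- two places with the same `ord` function are equal -/
theorem ext_of_ord {v w : Place K F} (h : ∀ f : F, v.ord f = w.ord f) : v = w := by
  apply eq_of_le
  intro f hf
  apply mem_of_ord_nonneg w
  rw [← h f]
  exact ord_nonneg_of_mem v hf

end Fermat.Agent.S24.FF
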