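import Mathlib
import Fermat.Prelude.Def_AlgebraicCurve_CanonicalDivisor

set_option autoImplicit false

namespace Fermat.Agent.S24.FF.DiffOrd

open KaehlerDifferential AlgebraicCurve IsDedekindDomain

/-- Nakayama: over a local `K`-algebra, essentially of finite type, with residue field `K` and
principal maximal ideal `(t)`, the module of differentials is generated by `dt`. -/
theorem span_D_eq_top_of_isLocalRing {K O : Type*} [Field K] [CommRing O] [Algebra K O]
    [IsLocalRing O] [Algebra.EssFiniteType K O]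
    (hres : Function.Surjective (algebraMap K (IsLocalRing.ResidueField O)))
    (t : O) (ht : IsLocalRing.maximalIdeal O = Ideal.span {t}) :
    Submodule.span O {D K O t} = ⊤ := by
  rw [eq_top_iff]
  refine Submodule.le_of_le_smul_of_le_jacobson_bot (I := IsLocalRing.maximalIdeal O)
    (Module.finite_def.mp inferInstance) (IsLocalRing.maximalIdeal_le_jacobson _) ?_
  rw [← KaehlerDifferential.span_range_derivation, Submodule.span_le]
  rintro _ ⟨f, rfl⟩
  obtain ⟨a, ha⟩ := hres (IsLocalRing.residue O f)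
  have hmem : f - algebraMap K O a ∈ IsLocalRing.maximalIdeal O := by
    rw [← IsLocalRing.residue_eq_zero_iff, map_sub, ← ha]
    rw [IsScalarTower.algebraMap_apply K O (IsLocalRing.ResidueField O)]
    exact sub_self _
  rw [ht, Ideal.mem_span_singleton'] at hmem
  obtain ⟨g, hg⟩ := hmem
  have hf : f = algebraMap K O a + g * t := by rw [hg]; ring
  have hD : D K O f = g • D K O t + t • D K O g := by
    rw [hf, map_add, Derivation.map_algebraMap, zero_add, Derivation.leibniz]
  rw [SetLike.mem_coe, hD]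
  refine Submodule.add_mem_sup (Submodule.smul_mem _ _ (Submodule.mem_span_singleton_self _)) ?_
  refine Submodule.smul_mem_smul ?_ ?_
  · rw [ht]; exact Ideal.mem_span_singleton_self t
  · rw [KaehlerDifferential.span_range_derivation]; exact Submodule.mem_top

variable {K F : Type*} [Field K] [Field F] [Algebra K F] (v : Place K F)

theorem ord_nonneg_of_mem {f : F} (hf : f ∈ v.toValuationSubring) : 0 ≤ v.ord f := by
  rcases eq_or_ne f 0 with rfl | h0
  · simp
  have h1 : v.adicValuation f ≤ 1 := by
    have := v.adicValuation_coe ⟨f, hf⟩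
    rw [show ((⟨f, hf⟩ : v.toValuationSubring) : F) = f from rfl] at this
    rw [this]
    exact HeightOneSpectrum.intValuation_le_one _ _
  have h2 : WithZero.log (v.adicValuation f) ≤ WithZero.log (1 : WithZero (Multiplicative ℤ)) :=
    (WithZero.log_le_log (v.adicValuation_ne_zero h0) one_ne_zero).mpr h1
  rw [WithZero.log_one] at h2
  unfold Place.ord
  omega

theorem mem_of_ord_nonneg {f : F} (hf : 0 ≤ v.ord f) : f ∈ v.toValuationSubring := by
  rcases eq_or_ne f 0 with rfl | h0
  · exact zero_mem _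
  obtain ⟨π, hπ⟩ := IsDiscreteValuationRing.exists_irreducible v.toValuationSubring
  obtain ⟨u, hu⟩ := v.exists_unit_mul_zpow h0 hπ
  rw [hu]
  obtain ⟨n, hn⟩ := Int.eq_ofNat_of_zero_le hf
  rw [hn, zpow_natCast]
  exact mul_mem (u : v.toValuationSubring).2 (pow_mem π.2 n)

theorem mem_iff_ord_nonneg {f : F} : f ∈ v.toValuationSubring ↔ 0 ≤ v.ord f :=
  ⟨ord_nonneg_of_mem v, mem_of_ord_nonneg v⟩

theorem ord_add_eq_of_lt {a b : F} (ha : a ≠ 0) (hb : b ≠ 0) (h : v.ord a < v.ord b) :
    v.ord (a + b) = v.ord a := by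
  have h1 : v.adicValuation b < v.adicValuation a := by
    rw [← WithZero.log_lt_log (v.adicValuation_ne_zero hb) (v.adicValuation_ne_zero ha)]
    unfold Place.ord at h
    omega
  unfold Place.ord
  rw [Valuation.map_add_eq_of_lt_left _ h1]

theorem ord_algebraMap (a : K) : v.ord (algebraMap K F a) = 0 := by
  rcases eq_or_ne a 0 with rfl | ha
  · simp
  have h1 := ord_nonneg_of_mem v (v.algebraMap_mem' a)
  have h2 := ord_nonneg_of_mem v (v.algebraMap_mem' a⁻¹)
  rw [map_inv₀, v.ord_inv] at h2
  omega

theorem add_ne_zero_of_ord_lt {a b : F} (ha : a ≠ 0) (hb : b ≠ 0) (h : v.ord a < v.ord b) :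
    a + b ≠ 0 := by
  intro h0
  have h1 : v.adicValuation b < v.adicValuation a := by
    rw [← WithZero.log_lt_log (v.adicValuation_ne_zero hb) (v.adicValuation_ne_zero ha)]
    unfold Place.ord at h
    omega
  have h2 : a = -b := eq_neg_of_add_eq_zero_left h0
  rw [h2, Valuation.map_neg] at h1
  exact lt_irrefl _ h1

theorem irreducible_of_ord_eq_one {t : F} (ht : v.ord t = 1) :
    Irreducible (⟨t, mem_of_ord_nonneg v (by omega)⟩ : v.toValuationSubring) := by
  have h0 : t ≠ 0 := by rintro rfl; simp at ht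
  obtain ⟨π, hπ⟩ := IsDiscreteValuationRing.exists_irreducible v.toValuationSubring
  obtain ⟨u, hu⟩ := v.exists_unit_mul_zpow h0 hπ
  rw [ht, zpow_one] at hu
  have : (⟨t, mem_of_ord_nonneg v (by omega)⟩ : v.toValuationSubring) = u * π := by
    ext; exact hu
  rw [this]
  exact (irreducible_units_mul u).mpr hπ

theorem exists_D_eq_smul [Algebra.EssFiniteType K v.toValuationSubring]
    (hres : Function.Surjective (algebraMap K v.ResidueField))
    {t : F} (ht : v.ord t = 1) {f : F} (hf : f ∈ v.toValuationSubring) :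
    ∃ g : F, g ∈ v.toValuationSubring ∧ D K F f = g • D K F t := by
  set t' : v.toValuationSubring := ⟨t, mem_of_ord_nonneg v (by omega)⟩ with ht'
  have hirr : Irreducible t' := irreducible_of_ord_eq_one v ht
  have hspan := span_D_eq_top_of_isLocalRing (K := K) (O := v.toValuationSubring) hres t'
    hirr.maximalIdeal_eq
  have hmem : D K v.toValuationSubring ⟨f, hf⟩ ∈ Submodule.span v.toValuationSubring
      {D K v.toValuationSubring t'} := by rw [hspan]; exact Submodule.mem_top
  obtain ⟨g, hg⟩ := Submodule.mem_span_singleton.mp hmem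
  refine ⟨g, g.2, ?_⟩
  have := congrArg (KaehlerDifferential.map K K v.toValuationSubring F) hg
  rw [map_smul, KaehlerDifferential.map_D, KaehlerDifferential.map_D] at this
  rw [show (algebraMap v.toValuationSubring F) t' = t from rfl,
    show (algebraMap v.toValuationSubring F) ⟨f, hf⟩ = f from rfl] at this
  rw [← this]
  rfl

theorem span_D_eq_top [Algebra.EssFiniteType K v.toValuationSubring]
    (hres : Function.Surjective (algebraMap K v.ResidueField))
    {t : F} (ht : v.ord t = 1) : Submodule.span F {D K F t} = ⊤ := by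
  rw [eq_top_iff, ← KaehlerDifferential.span_range_derivation, Submodule.span_le]
  rintro _ ⟨f, rfl⟩
  rw [SetLike.mem_coe]
  rcases v.toValuationSubring.mem_or_inv_mem f with hf | hf
  · obtain ⟨g, -, hg⟩ := exists_D_eq_smul v hres ht hf
    rw [hg]
    exact Submodule.smul_mem _ _ (Submodule.mem_span_singleton_self _)
  · obtain ⟨g, -, hg⟩ := exists_D_eq_smul v hres ht hf
    have h2 : D K F f = -f ^ 2 • D K F f⁻¹ := by
      have := Derivation.leibniz_inv (D K F) f⁻¹
      rwa [inv_inv] at this
    rw [h2, hg]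
    exact Submodule.smul_mem _ _ (Submodule.smul_mem _ _ (Submodule.mem_span_singleton_self _))

theorem exists_dCoord_eq : ∃ t₀ : F, v.ord t₀ = 1 ∧ v.dCoord = D K F t₀ := by
  refine ⟨((IsDiscreteValuationRing.exists_irreducible v.toValuationSubring).choose : F), ?_, rfl⟩
  exact v.ord_coe_irreducible
    (IsDiscreteValuationRing.exists_irreducible v.toValuationSubring).choose_spec

theorem dCoordGenerates [Algebra.EssFiniteType K v.toValuationSubring]
    (hres : Function.Surjective (algebraMap K v.ResidueField)) : v.DCoordGenerates := by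
  obtain ⟨t₀, ht₀, h⟩ := exists_dCoord_eq v
  exact ⟨by rw [h]; exact span_D_eq_top v hres ht₀⟩

/-- change of uniformizer: `dt = g dt₀` with `g` a unit of `O_v`. -/
theorem exists_D_eq_smul_ord_zero [Algebra.EssFiniteType K v.toValuationSubring]
    [Nontrivial Ω[F⁄K]]
    (hres : Function.Surjective (algebraMap K v.ResidueField))
    {t t₀ : F} (ht : v.ord t = 1) (ht₀ : v.ord t₀ = 1) :
    ∃ g : F, g ≠ 0 ∧ v.ord g = 0 ∧ D K F t = g • D K F t₀ := by
  obtain ⟨g, hgm, hg⟩ := exists_D_eq_smul v hres ht₀ (mem_of_ord_nonneg v (by omega : 0 ≤ v.ord t))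
  obtain ⟨g', hgm', hg'⟩ := exists_D_eq_smul v hres ht (mem_of_ord_nonneg v (by omega : 0 ≤ v.ord t₀))
  have hne : D K F t₀ ≠ 0 := by
    intro h0
    have htop := span_D_eq_top v hres ht₀
    rw [h0, Submodule.span_zero_singleton] at htop
    obtain ⟨x, hx⟩ := exists_ne (0 : Ω[F⁄K])
    exact hx ((Submodule.mem_bot F).mp (htop ▸ Submodule.mem_top))
  have h1 : (g' * g - 1) • D K F t₀ = 0 := by
    rw [sub_smul, mul_smul, ← hg, ← hg', one_smul, sub_self]
  have h2 : g' * g = 1 := by
    rcases smul_eq_zero.mp h1 with h | h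
    · exact sub_eq_zero.mp h
    · exact absurd h hne
  have hg0 : g ≠ 0 := by rintro rfl; simp at h2
  have hg0' : g' ≠ 0 := by rintro rfl; simp at h2
  refine ⟨g, hg0, ?_, hg⟩
  have h3 := v.ord_mul hg0' hg0
  rw [h2, v.ord_one] at h3
  have h4 := ord_nonneg_of_mem v hgm
  have h5 := ord_nonneg_of_mem v hgm'
  omega

/-- **Independence of the uniformizer**: the order of a differential may be computed with respect
to any uniformizer. -/
theorem ordDifferential_smul_D [Algebra.EssFiniteType K v.toValuationSubring]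
    [Nontrivial Ω[F⁄K]]
    (hres : Function.Surjective (algebraMap K v.ResidueField))
    {t : F} (ht : v.ord t = 1) (f : F) :
    v.ordDifferential (f • D K F t) = v.ord f := by
  have := dCoordGenerates v hres
  obtain ⟨t₀, ht₀, h⟩ := exists_dCoord_eq v
  obtain ⟨g, hg0, hg1, hg⟩ := exists_D_eq_smul_ord_zero v hres ht ht₀
  have h1 : f • D K F t = (f * g) • v.dCoord := by rw [h, hg, mul_smul]
  rw [Place.ordDifferential, v.differentialCoeff_unique h1]
  rcases eq_or_ne f 0 with rfl | hf
  · simp
  · rw [v.ord_mul hf hg0, hg1, add_zero]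

theorem exists_ord_eq_one : ∃ t : F, v.ord t = 1 := by
  obtain ⟨π, hπ⟩ := IsDiscreteValuationRing.exists_irreducible v.toValuationSubring
  exact ⟨π, v.ord_coe_irreducible hπ⟩

/-- Local expansion of `dy` (characteristic zero): for any uniformizer `t`,
`dy = g dt` with `g ≠ 0` and `ord_v g = ord_v y - 1`, whenever `ord_v y ≠ 0`. -/
theorem exists_D_eq_smul_of_ord_ne_zero [CharZero K]
    [Algebra.EssFiniteType K v.toValuationSubring]
    (hres : Function.Surjective (algebraMap K v.ResidueField))
    {t : F} (ht : v.ord t = 1) {y : F} (hy : v.ord y ≠ 0) :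
    ∃ g : F, g ≠ 0 ∧ v.ord g = v.ord y - 1 ∧ D K F y = g • D K F t := by
  have ht0 : t ≠ 0 := by rintro rfl; simp at ht
  have hy0 : y ≠ 0 := by rintro rfl; simp at hy
  set e : ℤ := v.ord y with he
  set u : F := y * t ^ (-e) with hu
  have hu0 : u ≠ 0 := mul_ne_zero hy0 (zpow_ne_zero _ ht0)
  have hordu : v.ord u = 0 := by
    rw [hu, v.ord_mul hy0 (zpow_ne_zero _ ht0), v.ord_zpow, ht, ← he]; ring
  have hyu : y = u * t ^ e := by
    rw [hu, mul_assoc, ← zpow_add₀ ht0]; simp
  obtain ⟨u', hu'm, hu'⟩ := exists_D_eq_smul v hres ht (mem_of_ord_nonneg v (le_of_eq hordu.symm))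
  have heF : ((e : ℤ) : F) = algebraMap K F ((e : ℤ) : K) := by simp
  have heF0 : ((e : ℤ) : F) ≠ 0 := by
    rw [heF]
    exact (map_ne_zero _).mpr (Int.cast_ne_zero.mpr hy)
  have hordeF : v.ord ((e : ℤ) : F) = 0 := by rw [heF]; exact ord_algebraMap v _
  have hD : D K F y = (t ^ (e - 1) * (((e : ℤ) : F) * u + t * u')) • D K F t := by
    conv_lhs => rw [hyu]
    rw [Derivation.leibniz, Derivation.leibniz_zpow, hu', ← Int.cast_smul_eq_zsmul F, smul_smul,
      smul_smul, smul_smul, ← add_smul]
    congr 1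
    have : t ^ e = t ^ (e - 1) * t := by
      rw [← zpow_add_one₀ ht0]; simp
    rw [this]; ring
  have h1 : v.ord (((e : ℤ) : F) * u) = 0 := by
    rw [v.ord_mul heF0 hu0, hordeF, hordu]; rfl
  have hsum : v.ord (((e : ℤ) : F) * u + t * u') = 0 := by
    rcases eq_or_ne u' 0 with rfl | hu'0
    · rw [mul_zero, add_zero, h1]
    · rw [ord_add_eq_of_lt v (mul_ne_zero heF0 hu0) (mul_ne_zero ht0 hu'0), h1]
      rw [h1, v.ord_mul ht0 hu'0, ht]
      have := ord_nonneg_of_mem v hu'm
      omega
  have hsum0 : ((e : ℤ) : F) * u + t * u' ≠ 0 := by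
    rcases eq_or_ne u' 0 with rfl | hu'0
    · rw [mul_zero, add_zero]; exact mul_ne_zero heF0 hu0
    · refine add_ne_zero_of_ord_lt v (mul_ne_zero heF0 hu0) (mul_ne_zero ht0 hu'0) ?_
      rw [h1, v.ord_mul ht0 hu'0, ht]
      have := ord_nonneg_of_mem v hu'm
      omega
  refine ⟨_, mul_ne_zero (zpow_ne_zero _ ht0) hsum0, ?_, hD⟩
  rw [v.ord_mul (zpow_ne_zero _ ht0) hsum0, v.ord_zpow, ht, hsum]
  ring

/-- `ord_v (f dy) = ord_v f + ord_v y - 1` whenever `ord_v y ≠ 0`, `f ≠ 0` (characteristic zero). -/
theorem ordDifferential_smul_D_of_ord_ne_zero [CharZero K]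
    [Algebra.EssFiniteType K v.toValuationSubring] [Nontrivial Ω[F⁄K]]
    (hres : Function.Surjective (algebraMap K v.ResidueField))
    {f : F} (hf : f ≠ 0) {y : F} (hy : v.ord y ≠ 0) :
    v.ordDifferential (f • D K F y) = v.ord f + v.ord y - 1 := by
  obtain ⟨t, ht⟩ := exists_ord_eq_one v
  obtain ⟨g, hg0, hg1, hg⟩ := exists_D_eq_smul_of_ord_ne_zero v hres ht hy
  rw [hg, smul_smul, ordDifferential_smul_D v hres ht, v.ord_mul hf hg0, hg1]
  ring

/-- `ord_v (dy) = ord_v y - 1` whenever `ord_v y ≠ 0` (characteristic zero). -/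
theorem ordDifferential_D [CharZero K] [Algebra.EssFiniteType K v.toValuationSubring]
    [Nontrivial Ω[F⁄K]]
    (hres : Function.Surjective (algebraMap K v.ResidueField))
    {y : F} (hy : v.ord y ≠ 0) :
    v.ordDifferential (D K F y) = v.ord y - 1 := by
  have := ordDifferential_smul_D_of_ord_ne_zero v hres (one_ne_zero (α := F)) hy
  rwa [one_smul, v.ord_one, zero_add] at this

theorem D_sub_algebraMap (x : F) (c : K) : D K F (x - algebraMap K F c) = D K F x := by
  rw [map_sub, Derivation.map_algebraMap, sub_zero]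

/-- (A5), finite places: if `e = ord_v (x - c) ≠ 0` then `ord_v (f dx) = ord_v f + e - 1`. -/
theorem ordDifferential_smul_D_sub [CharZero K]
    [Algebra.EssFiniteType K v.toValuationSubring] [Nontrivial Ω[F⁄K]]
    (hres : Function.Surjective (algebraMap K v.ResidueField))
    {f : F} (hf : f ≠ 0) (x : F) (c : K) (h : v.ord (x - algebraMap K F c) ≠ 0) :
    v.ordDifferential (f • D K F x) = v.ord f + v.ord (x - algebraMap K F c) - 1 := by
  rw [← D_sub_algebraMap x c]
  exact ordDifferential_smul_D_of_ord_ne_zero v hres hf h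

/-- A nonzero element of the maximal ideal has positive order. -/
theorem ord_pos_of_mem_maximalIdeal {a : v.toValuationSubring}
    (ha : a ∈ IsLocalRing.maximalIdeal v.toValuationSubring) (h0 : a ≠ 0) : 0 < v.ord (a : F) := by
  have h1 := ord_nonneg_of_mem v a.2
  rcases h1.lt_or_eq with h | h
  · exact h
  exfalso
  obtain ⟨π, hπ⟩ := IsDiscreteValuationRing.exists_irreducible v.toValuationSubring
  have h0' : (a : F) ≠ 0 := by simpa using h0
  obtain ⟨u, hu⟩ := v.exists_unit_mul_zpow h0' hπ
  rw [← h, zpow_zero, mul_one] at hu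
  have : a = u := Subtype.ext hu
  rw [this] at ha
  exact (IsLocalRing.mem_maximalIdeal _).mp ha u.isUnit

/-- An element of positive order lies in the maximal ideal. -/
theorem mem_maximalIdeal_of_ord_pos {f : F} (hf : 0 < v.ord f) :
    (⟨f, mem_of_ord_nonneg v hf.le⟩ : v.toValuationSubring) ∈
      IsLocalRing.maximalIdeal v.toValuationSubring := by
  rw [IsLocalRing.mem_maximalIdeal, mem_nonunits_iff]
  intro hu
  have := v.ord_coe_unit hu.unit
  rw [IsUnit.unit_spec] at this
  change v.ord f = 0 at this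
  omega

/-- Residue field `K`: every element of `O_v` is congruent to a constant; so a non-constant `x`
without pole at `v` lies over a (unique) `c : K`. -/
theorem exists_ord_sub_pos (hres : Function.Surjective (algebraMap K v.ResidueField))
    {x : F} (hx : 0 ≤ v.ord x) :
    ∃ c : K, x = algebraMap K F c ∨ 0 < v.ord (x - algebraMap K F c) := by
  have hxm := mem_of_ord_nonneg v hx
  obtain ⟨c, hc⟩ := hres (IsLocalRing.residue v.toValuationSubring ⟨x, hxm⟩)
  refine ⟨c, ?_⟩
  have hmem : (⟨x, hxm⟩ - algebraMap K v.toValuationSubring c : v.toValuationSubring) ∈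
      IsLocalRing.maximalIdeal v.toValuationSubring := by
    rw [← IsLocalRing.residue_eq_zero_iff, map_sub, ← hc,
      IsScalarTower.algebraMap_apply K v.toValuationSubring v.ResidueField]
    exact sub_self _
  by_cases h0 : (⟨x, hxm⟩ - algebraMap K v.toValuationSubring c : v.toValuationSubring) = 0
  · left
    have := congrArg (Subtype.val) h0
    simpa [sub_eq_zero] using this
  · right
    have h5 := ord_pos_of_mem_maximalIdeal v hmem h0
    rwa [AddSubgroupClass.coe_sub, Place.coe_algebraMap] at h5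

/-- Uniqueness of the point `c` below a place. -/
theorem eq_of_ord_sub_pos {x : F} {c c' : K} (h : 0 < v.ord (x - algebraMap K F c))
    (h' : 0 < v.ord (x - algebraMap K F c')) : c = c' := by
  by_contra hne
  have h1 := mem_maximalIdeal_of_ord_pos v h
  have h2 := mem_maximalIdeal_of_ord_pos v h'
  have h3 := Ideal.sub_mem _ h2 h1
  have h4 : (⟨x - algebraMap K F c', mem_of_ord_nonneg v h'.le⟩ -
      ⟨x - algebraMap K F c, mem_of_ord_nonneg v h.le⟩ : v.toValuationSubring) =
      algebraMap K v.toValuationSubring (c - c') := by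
    ext
    simp
  rw [h4] at h3
  have hu : IsUnit (algebraMap K v.toValuationSubring (c - c')) :=
    (isUnit_iff_ne_zero.mpr (sub_ne_zero.mpr hne)).map _
  exact (IsLocalRing.mem_maximalIdeal _).mp h3 hu

end Fermat.Agent.S24.FF.DiffOrd
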