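import Mathlib
import Fermat.Prelude.Def_AlgebraicCurve_DivisorClassGroup

set_option autoImplicit false

/-!
# S24, layer (A1): places of `F/K` containing a Dedekind subring come from its primes

Let `R` be a Dedekind domain with fraction field `F`, a `K`-algebra compatible with `F`.
A place `v` of `F/K` whose valuation ring contains `R` is `Place.ofHeightOneSpectrum w` for a
unique height-one prime `w` of `R` (the centre of `v` on `R`).
-/

namespace Fermat.Agent.S24.FF

open AlgebraicCurve IsDedekindDomain IsDedekindDomain.HeightOneSpectrum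

variable {K F : Type*} [Field K] [Field F] [Algebra K F]
variable {R : Type*} [CommRing R] [IsDedekindDomain R] [Algebra R F] [IsFractionRing R F]

/-- The centre on `R` of a valuation subring containing `R`. -/
def centre (A : ValuationSubring F) (hR : ∀ r : R, algebraMap R F r ∈ A) : Ideal R :=
  (IsLocalRing.maximalIdeal A).comap ((algebraMap R F).codRestrict A.toSubring hR)

omit [IsDedekindDomain R] [IsFractionRing R F] in
theorem mem_centre_iff (A : ValuationSubring F) (hR : ∀ r : R, algebraMap R F r ∈ A) (r : R) :
    r ∈ centre A hR ↔ (⟨algebraMap R F r, hR r⟩ : A) ∈ IsLocalRing.maximalIdeal A := Iff.rfl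

instance centre_isPrime (A : ValuationSubring F) (hR : ∀ r : R, algebraMap R F r ∈ A) :
    (centre A hR).IsPrime := by
  unfold centre
  infer_instance

theorem centre_ne_bot (A : ValuationSubring F) (hR : ∀ r : R, algebraMap R F r ∈ A)
    (hA : A ≠ ⊤) : centre A hR ≠ ⊥ := by
  intro hbot
  apply hA
  rw [eq_top_iff]
  intro f _
  obtain ⟨a, b, hb, rfl⟩ := IsFractionRing.div_surjective (A := R) f
  have hb0 : b ≠ 0 := nonZeroDivisors.ne_zero hb
  have hbnot : b ∉ centre A hR := by
    rw [hbot, Ideal.mem_bot]; exact hb0
  rw [mem_centre_iff, IsLocalRing.mem_maximalIdeal, mem_nonunits_iff, not_not] at hbnot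
  obtain ⟨u, hu⟩ := hbnot
  have hinv : (algebraMap R F b)⁻¹ = ((u⁻¹ : Aˣ) : A) := by
    have h1 : ((u : A) : F) = algebraMap R F b := by rw [hu]
    have h2 : ((u : A) : F) * (((u⁻¹ : Aˣ) : A) : F) = 1 := by
      rw [← MulMemClass.coe_mul, Units.mul_inv]; rfl
    rw [← h1]
    exact inv_eq_of_mul_eq_one_right h2
  rw [div_eq_mul_inv, hinv]
  exact A.mul_mem _ _ (hR a) (SetLike.coe_mem _)

/-- The height-one prime of `R` under a place whose valuation ring contains `R`. -/
def centreSpectrum (v : Place K F) (hR : ∀ r : R, algebraMap R F r ∈ v.toValuationSubring) :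
    HeightOneSpectrum R :=
  ⟨centre v.toValuationSubring hR, inferInstance, centre_ne_bot _ hR v.ne_top'⟩

theorem valuationSubringAtPrime_le (v : Place K F)
    (hR : ∀ r : R, algebraMap R F r ∈ v.toValuationSubring) :
    valuationSubringAtPrime F (centreSpectrum v hR) ≤ v.toValuationSubring := by
  intro x hx
  have hx' : (centreSpectrum v hR).valuation F x ≤ 1 := by
    rw [valuationSubringAtPrime_eq_valuationSubring] at hx
    exact hx
  obtain ⟨n, d, hnd⟩ := exists_primeCompl_mul_eq_of_integer (centreSpectrum v hR) x hx'
  have hd : (d : R) ∉ centre v.toValuationSubring hR := d.2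
  rw [mem_centre_iff, IsLocalRing.mem_maximalIdeal, mem_nonunits_iff, not_not] at hd
  obtain ⟨u, hu⟩ := hd
  have h1 : ((u : v.toValuationSubring) : F) = algebraMap R F d := by rw [hu]
  have h2 : ((u : v.toValuationSubring) : F) * (((u⁻¹ : v.toValuationSubringˣ) :
      v.toValuationSubring) : F) = 1 := by
    rw [← MulMemClass.coe_mul, Units.mul_inv]; rfl
  have hx2 : x = algebraMap R F n * (((u⁻¹ : v.toValuationSubringˣ) :
      v.toValuationSubring) : F) := by
    rw [← hnd, ← h1, mul_assoc, h2, mul_one]
  rw [hx2]
  exact v.toValuationSubring.mul_mem _ _ (hR n) (SetLike.coe_mem _)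

/-- **(A1-core)** A place whose valuation ring contains the Dedekind domain `R` (with fraction
field `F`) is the place attached to a height-one prime of `R`. -/
theorem exists_heightOneSpectrum_of_le [Algebra K R] [IsScalarTower K R F] (v : Place K F)
    (hR : ∀ r : R, algebraMap R F r ∈ v.toValuationSubring) :
    ∃ w : HeightOneSpectrum R, v = Place.ofHeightOneSpectrum (K := K) w := by
  refine ⟨centreSpectrum v hR, ?_⟩
  apply Place.ext
  rw [Place.ofHeightOneSpectrum_toValuationSubring, ← valuationSubringAtPrime_eq_valuationSubring]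
  exact (ValuationSubring.eq_of_le_of_ne_top _ (valuationSubringAtPrime_le v hR) v.ne_top').symm

/-- The place attached to a height-one prime determines the prime. -/
theorem ofHeightOneSpectrum_injective [Algebra K R] [IsScalarTower K R F] :
    Function.Injective (Place.ofHeightOneSpectrum (K := K) (F := F) (R := R)) := by
  intro w₁ w₂ h
  have h' := congrArg Place.toValuationSubring h
  simp only [Place.ofHeightOneSpectrum_toValuationSubring] at h'
  apply eq_of_valuation_isEquiv_valuation (K := F)
  exact (Valuation.isEquiv_iff_valuationSubring _ _).mpr h'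

/-- The valuation ring of `ofHeightOneSpectrum w` contains `R`. -/
theorem algebraMap_mem_ofHeightOneSpectrum [Algebra K R] [IsScalarTower K R F]
    (w : HeightOneSpectrum R) (r : R) :
    algebraMap R F r ∈ (Place.ofHeightOneSpectrum (K := K) (F := F) w).toValuationSubring := by
  rw [Place.ofHeightOneSpectrum_toValuationSubring, Valuation.mem_valuationSubring_iff]
  exact w.valuation_le_one r

/-! ### The order function -/

theorem mem_iff_of_eq (v : Place K F) (w : HeightOneSpectrum R)
    (h : v.toValuationSubring = (w.valuation F).valuationSubring) (x : F) :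
    x ∈ v.toValuationSubring ↔ w.valuation F x ≤ 1 := by
  rw [h]; exact Valuation.mem_valuationSubring_iff _ _

theorem valuation_unit_of_eq (v : Place K F) (w : HeightOneSpectrum R)
    (h : v.toValuationSubring = (w.valuation F).valuationSubring) (u : v.toValuationSubringˣ) :
    w.valuation F ((u : v.toValuationSubring) : F) = 1 := by
  have h1 : w.valuation F ((u : v.toValuationSubring) : F) ≤ 1 :=
    (mem_iff_of_eq v w h _).mp (u : v.toValuationSubring).2
  have h2 : w.valuation F (((u⁻¹ : v.toValuationSubringˣ) : v.toValuationSubring) : F) ≤ 1 :=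
    (mem_iff_of_eq v w h _).mp ((u⁻¹ : v.toValuationSubringˣ) : v.toValuationSubring).2
  have h3 : ((u : v.toValuationSubring) : F) *
      (((u⁻¹ : v.toValuationSubringˣ) : v.toValuationSubring) : F) = 1 := by
    rw [← MulMemClass.coe_mul, Units.mul_inv]; rfl
  have h4 := congrArg (w.valuation F) h3
  rw [map_mul, map_one] at h4
  exact eq_one_of_one_le_mul_left h1 h2 h4.ge

/-- If the valuation ring of the place `v` is the valuation ring of the `w`-adic valuation, then
`v.ord` is the `w`-adic order. -/
theorem ord_eq_of_eq (v : Place K F) (w : HeightOneSpectrum R)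
    (h : v.toValuationSubring = (w.valuation F).valuationSubring) (f : F) :
    v.ord f = -WithZero.log (w.valuation F f) := by
  rcases eq_or_ne f 0 with rfl | hf
  · simp
  obtain ⟨ϖ, hϖ⟩ := IsDiscreteValuationRing.exists_irreducible v.toValuationSubring
  have hϖ0 : (ϖ : F) ≠ 0 := by
    simpa [ne_eq, ZeroMemClass.coe_eq_zero] using hϖ.ne_zero
  have hval0 : ∀ {x : F}, x ≠ 0 → w.valuation F x ≠ 0 := fun hx =>
    (Valuation.ne_zero_iff _).mpr hx
  -- `ϖ` has valuation `< 1`
  have hϖle : w.valuation F (ϖ : F) ≤ 1 := (mem_iff_of_eq v w h _).mp ϖ.2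
  have hϖlt : w.valuation F (ϖ : F) < 1 := by
    refine lt_of_le_of_ne hϖle fun h1 => ?_
    apply hϖ.not_isUnit
    have hinv : (ϖ : F)⁻¹ ∈ v.toValuationSubring := by
      rw [mem_iff_of_eq v w h, map_inv₀, h1, inv_one]
    refine IsUnit.of_mul_eq_one (⟨(ϖ : F)⁻¹, hinv⟩ : v.toValuationSubring) ?_
    ext
    simp [hϖ0]
  -- a uniformizer for `w`
  obtain ⟨π, hπ⟩ := w.valuation_exists_uniformizer F
  have hπ0 : π ≠ 0 := by
    rintro rfl
    rw [map_zero] at hπ
    exact WithZero.exp_ne_zero hπ.symm
  obtain ⟨u1, hu1⟩ := v.exists_unit_mul_zpow hπ0 hϖ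
  obtain ⟨u, hu⟩ := v.exists_unit_mul_zpow hf hϖ
  set k : ℤ := WithZero.log (w.valuation F (ϖ : F)) with hk
  have hkneg : k < 0 := by
    rw [hk]
    have := (WithZero.log_lt_log (hval0 hϖ0) one_ne_zero).mpr hϖlt
    simpa using this
  -- compute the log-valuation of `π`
  have e1 : WithZero.log (w.valuation F π) = v.ord π * k := by
    conv_lhs => rw [hu1]
    rw [map_mul, map_zpow₀, valuation_unit_of_eq v w h, one_mul, WithZero.log_zpow,
      smul_eq_mul]
  rw [hπ, WithZero.log_exp] at e1
  have hk1 : k = -1 := by
    have h1 : v.ord π * (-k) = 1 := by linarith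
    rcases Int.eq_one_or_neg_one_of_mul_eq_one' h1 with ⟨_, h⟩ | ⟨_, h⟩
    · linarith
    · linarith
  have e2 : WithZero.log (w.valuation F f) = v.ord f * k := by
    conv_lhs => rw [hu]
    rw [map_mul, map_zpow₀, valuation_unit_of_eq v w h, one_mul, WithZero.log_zpow,
      smul_eq_mul]
  rw [e2, hk1]
  ring

variable [Algebra K R] [IsScalarTower K R F]

/-- **(A1-ord)** The order function of the place attached to a height-one prime `w` of `R` is the
`w`-adic order. -/
theorem ord_ofHeightOneSpectrum (w : HeightOneSpectrum R) (f : F) :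
    (Place.ofHeightOneSpectrum (K := K) w).ord f = -WithZero.log (w.valuation F f) :=
  ord_eq_of_eq _ w (Place.ofHeightOneSpectrum_toValuationSubring w) f

/-- For `r : R`, `r ≠ 0`, the order at the place attached to `w` is the multiplicity of `w` in the
factorisation of `(r)`. -/
theorem ord_ofHeightOneSpectrum_algebraMap (w : HeightOneSpectrum R) {r : R} (hr : r ≠ 0) :
    (Place.ofHeightOneSpectrum (K := K) w).ord (algebraMap R F r) =
      ((Associates.mk w.asIdeal).count (Associates.mk (Ideal.span {r} : Ideal R)).factors : ℤ) := by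
  rw [ord_ofHeightOneSpectrum, valuation_of_algebraMap, intValuation_if_neg w hr, WithZero.log_exp,
    neg_neg]

/-! ### Integral closures -/

section IntegralClosure

open Polynomial

/-- Valuation subrings are integrally closed: an element integral over a ring mapping into the
valuation subring `O` lies in `O`. -/
theorem mem_of_isIntegral_of_le {A : Type*} [CommRing A] [Algebra A F] (O : ValuationSubring F)
    (hA : ∀ a : A, algebraMap A F a ∈ O) {b : F} (hb : IsIntegral A b) : b ∈ O := by
  let φ : A →+* O := (algebraMap A F).codRestrict O.toSubring hA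
  have hφ : (algebraMap O F).comp φ = algebraMap A F := RingHom.ext fun _ => rfl
  have hint : IsIntegral O b := by
    obtain ⟨p, hp, hpb⟩ := hb
    refine ⟨p.map φ, hp.map φ, ?_⟩
    rw [Polynomial.eval₂_map, hφ]
    exact hpb
  obtain ⟨y, hy⟩ := IsIntegrallyClosed.isIntegral_iff.mp hint
  rw [← hy]
  exact y.2

/-- **(A1-int)** If the valuation ring of the place `v` contains `x`, it contains `K[x]`. -/
theorem polynomial_algebraMap_mem (v : Place K F) [Algebra K[X] F] [IsScalarTower K K[X] F]
    (hx : algebraMap K[X] F X ∈ v.toValuationSubring) (p : K[X]) :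
    algebraMap K[X] F p ∈ v.toValuationSubring := by
  induction p using Polynomial.induction_on with
  | C a =>
    have : algebraMap K[X] F (C a) = algebraMap K F a := by
      rw [← Polynomial.algebraMap_eq, ← IsScalarTower.algebraMap_apply]
    rw [this]
    exact v.algebraMap_mem' a
  | add p q hp hq =>
    rw [map_add]
    exact v.toValuationSubring.add_mem _ _ hp hq
  | monomial n a h =>
    rw [pow_succ, ← mul_assoc, map_mul]
    exact v.toValuationSubring.mul_mem _ _ h hx

/-- **(A1-int)** If the valuation ring of the place `v` contains `x`, it contains the integral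
closure of `K[x]` in `F`. -/
theorem integralClosure_mem (v : Place K F) [Algebra K[X] F] [IsScalarTower K K[X] F]
    (hx : algebraMap K[X] F X ∈ v.toValuationSubring) (b : integralClosure K[X] F) :
    algebraMap (integralClosure K[X] F) F b ∈ v.toValuationSubring :=
  mem_of_isIntegral_of_le v.toValuationSubring (polynomial_algebraMap_mem v hx) b.2

end IntegralClosure

end Fermat.Agent.S24.FF
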