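import Mathlib
import Fermat.Agent.S24.FF.PlaceOfDedekind

set_option autoImplicit false

/-!
# S24, layer (A): the valuation ring of a place is essentially of finite type

If the valuation ring of the place `v` of `F/K` contains a Dedekind domain `R` with fraction field
`F` which is essentially of finite type over `K`, then `O_v` (a localisation of `R`) is essentially
of finite type over `K`.
-/

namespace Fermat.Agent.S24.FF.EssFinite

open AlgebraicCurve IsDedekindDomain IsDedekindDomain.HeightOneSpectrum

variable {K F : Type*} [Field K] [Field F] [Algebra K F]
variable {R : Type*} [CommRing R] [IsDedekindDomain R] [Algebra R F] [IsFractionRing R F]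
variable [Algebra K R] [IsScalarTower K R F]

omit [Algebra K F] [IsScalarTower K R F] in
theorem essFiniteType_valuationSubringAtPrime [Algebra.EssFiniteType K R]
    (w : HeightOneSpectrum R) :
    let _ : Algebra K (valuationSubringAtPrime F w) :=
      ((algebraMap R (valuationSubringAtPrime F w)).comp (algebraMap K R)).toAlgebra
    Algebra.EssFiniteType K (valuationSubringAtPrime F w) := by
  let _ : Algebra K (valuationSubringAtPrime F w) :=
    ((algebraMap R (valuationSubringAtPrime F w)).comp (algebraMap K R)).toAlgebra
  have : IsScalarTower K R (valuationSubringAtPrime F w) :=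
    IsScalarTower.of_algebraMap_eq fun _ => rfl
  have : Algebra.EssFiniteType R (valuationSubringAtPrime F w) :=
    Algebra.EssFiniteType.of_isLocalization _ w.asIdeal.primeCompl
  exact Algebra.EssFiniteType.comp K R (valuationSubringAtPrime F w)

/-- The valuation ring of a place containing a Dedekind domain `R` (fraction field `F`)
essentially of finite type over `K` is essentially of finite type over `K`. -/
theorem essFiniteType_of_le [Algebra.EssFiniteType K R] (v : Place K F)
    (hR : ∀ r : R, algebraMap R F r ∈ v.toValuationSubring) :
    Algebra.EssFiniteType K v.toValuationSubring := by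
  obtain ⟨w, rfl⟩ := exists_heightOneSpectrum_of_le v hR
  let _ : Algebra K (valuationSubringAtPrime F w) :=
    ((algebraMap R (valuationSubringAtPrime F w)).comp (algebraMap K R)).toAlgebra
  have := essFiniteType_valuationSubringAtPrime (K := K) (F := F) w
  have hA : (valuationSubringAtPrime F w).toSubring =
      (Place.ofHeightOneSpectrum (K := K) (F := F) w).toValuationSubring.toSubring := by
    rw [Place.ofHeightOneSpectrum_toValuationSubring,
      ← valuationSubringAtPrime_eq_valuationSubring]
  let e : (valuationSubringAtPrime F w) ≃ₐ[K]
      (Place.ofHeightOneSpectrum (K := K) (F := F) w).toValuationSubring :=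
    AlgEquiv.ofRingEquiv (f := RingEquiv.subringCongr hA) (fun a => by
      apply Subtype.ext
      change algebraMap R F (algebraMap K R a) = algebraMap K F a
      rw [← IsScalarTower.algebraMap_apply])
  exact (Algebra.EssFiniteType.iff_of_algEquiv e).mp inferInstance

open Polynomial in
/-- Instance form: `F` finite over `K(x)`, `x ∈ O_v`, characteristic zero: `O_v` is a localisation
of the integral closure of `K[x]` in `F`, which is a `K`-algebra of finite type. -/
theorem essFiniteType_of_X_mem [CharZero K] [Algebra K[X] F] [Algebra (RatFunc K) F]
    [IsScalarTower K K[X] F] [IsScalarTower K[X] (RatFunc K) F]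
    [FiniteDimensional (RatFunc K) F] (v : Place K F)
    (hx : algebraMap K[X] F X ∈ v.toValuationSubring) :
    Algebra.EssFiniteType K v.toValuationSubring := by
  have : CharZero (RatFunc K) := charZero_of_injective_algebraMap (algebraMap K (RatFunc K)).injective
  have : Algebra.IsSeparable (RatFunc K) F := inferInstance
  have : IsDedekindDomain (integralClosure K[X] F) :=
    integralClosure.isDedekindDomain K[X] (RatFunc K) F
  have : IsFractionRing (integralClosure K[X] F) F :=
    integralClosure.isFractionRing_of_finite_extension (RatFunc K) F
  have : Module.Finite K[X] (integralClosure K[X] F) :=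
    IsIntegralClosure.finite K[X] (RatFunc K) F (integralClosure K[X] F)
  have : Algebra.FiniteType K[X] (integralClosure K[X] F) := inferInstance
  have : Algebra.FiniteType K (integralClosure K[X] F) :=
    Algebra.FiniteType.trans (inferInstance : Algebra.FiniteType K K[X]) inferInstance
  exact essFiniteType_of_le (R := integralClosure K[X] F) v (integralClosure_mem v hx)

end Fermat.Agent.S24.FF.EssFinite
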