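import Mathlib
import Fermat.Prelude.Def_ModularCurve_CanonicalDivisor

set_option autoImplicit false

/-!
# S24 layer (A3): `Ω[F⁄K]` is free of rank one on `dt` when `F` is algebraic over `K(t)` (char 0)

* `D_mem_span_of_mem_adjoin` : `s ∈ K(t) → ds ∈ F · dt`
* `span_D_eq_top` : `F` algebraic over `K(t)`, char 0 `→ F · dt = Ω[F⁄K]`
* `D_gen_ne_zero` : `t` transcendental `→ dt ≠ 0` in `Ω[K(t)⁄K]`
* `D_ne_zero` : `t` transcendental, `F` algebraic over `K(t)`, char 0 `→ dt ≠ 0` in `Ω[F⁄K]`
* `nontrivial_kaehler`, `D_eq_smul_D`, `finrank_kaehler`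
-/

namespace Fermat.Agent.S24.FF

open KaehlerDifferential IntermediateField Polynomial TensorProduct

section

variable {K F : Type*} [Field K] [Field F] [Algebra K F]

/-- For `s ∈ K(t)`, `ds ∈ F · dt`. -/
theorem D_mem_span_of_mem_adjoin (t : F) {s : F} (hs : s ∈ K⟮t⟯) :
    D K F s ∈ Submodule.span F {D K F t} := by
  induction hs using IntermediateField.adjoin_induction with
  | mem x hx =>
    rw [Set.mem_singleton_iff] at hx
    subst hx
    exact Submodule.subset_span rfl
  | algebraMap x =>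
    rw [Derivation.map_algebraMap]
    exact Submodule.zero_mem _
  | add x y _ _ hx hy =>
    rw [map_add]
    exact Submodule.add_mem _ hx hy
  | inv x _ hx =>
    rw [Derivation.leibniz_inv]
    exact Submodule.smul_mem _ _ hx
  | mul x y _ _ hx hy =>
    rw [Derivation.leibniz]
    exact Submodule.add_mem _ (Submodule.smul_mem _ _ hy) (Submodule.smul_mem _ _ hx)

theorem map_adjoin_mem_span (t : F) (y : Ω[K⟮t⟯⁄K]) :
    KaehlerDifferential.map K K K⟮t⟯ F y ∈ Submodule.span F {D K F t} := by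
  have hy : y ∈ Submodule.span K⟮t⟯ (Set.range (D K K⟮t⟯)) := by
    rw [span_range_derivation]; trivial
  induction hy using Submodule.span_induction with
  | mem y hy =>
    obtain ⟨s, rfl⟩ := hy
    rw [map_D]
    exact D_mem_span_of_mem_adjoin t s.2
  | zero => simp
  | add a b _ _ ha hb => rw [map_add]; exact add_mem ha hb
  | smul c a _ ha =>
    rw [map_smul, ← algebraMap_smul F c]
    exact Submodule.smul_mem _ _ ha

/-- If `F` is algebraic over `K(t)` (characteristic zero), then `dt` spans `Ω[F⁄K]`. -/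
theorem span_D_eq_top [CharZero K] (t : F) [Algebra.IsAlgebraic K⟮t⟯ F] :
    Submodule.span F {D K F t} = ⊤ := by
  have : CharZero K⟮t⟯ := charZero_of_injective_algebraMap (algebraMap K K⟮t⟯).injective
  have : Algebra.IsSeparable K⟮t⟯ F := Algebra.IsAlgebraic.isSeparable_of_perfectField
  have : Algebra.FormallyEtale K⟮t⟯ F := Algebra.FormallyEtale.of_isSeparable K⟮t⟯ F
  rw [eq_top_iff]
  intro ω hω
  clear hω
  have hex := (KaehlerDifferential.exact_mapBaseChange_map K K⟮t⟯ F ω).mp (Subsingleton.elim _ _)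
  obtain ⟨z, rfl⟩ := hex
  induction z with
  | zero => simp
  | tmul x y =>
    rw [mapBaseChange_tmul]
    exact Submodule.smul_mem _ _ (map_adjoin_mem_span t y)
  | add a b ha hb => rw [map_add]; exact add_mem ha hb

/-- In `K(t)` with `t` transcendental, `dt ≠ 0`. -/
theorem D_gen_ne_zero {t : F} (ht : Transcendental K t) :
    D K K⟮t⟯ (AdjoinSimple.gen K t) ≠ 0 := by
  let _ : Algebra K[X] K⟮t⟯ := (aeval (AdjoinSimple.gen K t)).toRingHom.toAlgebra
  have hsc : IsScalarTower K K[X] K⟮t⟯ := IsScalarTower.of_algebraMap_eq fun r => by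
    show algebraMap K K⟮t⟯ r = aeval (AdjoinSimple.gen K t) (algebraMap K K[X] r)
    rw [Polynomial.algebraMap_apply, Algebra.algebraMap_self_apply, aeval_C]
  let e : RatFunc K ≃ₐ[K[X]] K⟮t⟯ :=
    AlgEquiv.ofRingEquiv (f := (RatFunc.algEquivOfTranscendental t ht).toRingEquiv) (fun g => by
      show RatFunc.algEquivOfTranscendental t ht (algebraMap K[X] (RatFunc K) g) = _
      rw [RatFunc.algEquivOfTranscendental_algebraMap]
      rfl)
  have hfr : IsFractionRing K[X] K⟮t⟯ := IsLocalization.isLocalization_of_algEquiv _ e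
  have hloc : IsLocalizedModule (nonZeroDivisors K[X]) (KaehlerDifferential.map K K K[X] K⟮t⟯) :=
    KaehlerDifferential.isLocalizedModule_map K K[X] K⟮t⟯ (nonZeroDivisors K[X])
  intro h0
  have h1 : KaehlerDifferential.map K K K[X] K⟮t⟯ (D K K[X] X) = 0 := by
    rw [map_D]
    have : algebraMap K[X] K⟮t⟯ X = AdjoinSimple.gen K t := by
      show aeval (AdjoinSimple.gen K t) X = _
      rw [aeval_X]
    rw [this, h0]
  rw [IsLocalizedModule.eq_zero_iff (nonZeroDivisors K[X])] at h1
  obtain ⟨s, hs⟩ := h1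
  have h2 := congrArg (KaehlerDifferential.polynomialEquiv K) hs
  rw [Submonoid.smul_def, map_smul, map_zero, KaehlerDifferential.polynomialEquiv_D, derivative_X,
    smul_eq_mul, mul_one] at h2
  exact nonZeroDivisors.coe_ne_zero s h2

/-- If `t` is transcendental over `K` and `F` is algebraic over `K(t)` (characteristic zero),
then `dt ≠ 0` in `Ω[F⁄K]`. -/
theorem D_ne_zero [CharZero K] {t : F} (ht : Transcendental K t) [Algebra.IsAlgebraic K⟮t⟯ F] :
    D K F t ≠ 0 := by
  have : CharZero K⟮t⟯ := charZero_of_injective_algebraMap (algebraMap K K⟮t⟯).injective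
  have : Algebra.IsSeparable K⟮t⟯ F := Algebra.IsAlgebraic.isSeparable_of_perfectField
  have : Algebra.FormallyEtale K⟮t⟯ F := Algebra.FormallyEtale.of_isSeparable K⟮t⟯ F
  intro h0
  have h1 : (tensorKaehlerEquivOfFormallyEtale K K⟮t⟯ F)
      ((1 : F) ⊗ₜ[K⟮t⟯] D K K⟮t⟯ (AdjoinSimple.gen K t)) = 0 := by
    rw [tensorKaehlerEquivOfFormallyEtale_apply, mapBaseChange_tmul, one_smul, map_D]
    exact h0
  rw [LinearEquiv.map_eq_zero_iff] at h1
  have h2 := Module.Flat.tensorProduct_mk_injective K⟮t⟯ Ω[K⟮t⟯⁄K] F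
  have h3 : TensorProduct.mk K⟮t⟯ F Ω[K⟮t⟯⁄K] 1 (D K K⟮t⟯ (AdjoinSimple.gen K t)) =
      TensorProduct.mk K⟮t⟯ F Ω[K⟮t⟯⁄K] 1 0 := by
    rw [map_zero]
    exact h1
  exact D_gen_ne_zero ht (h2 h3)

/-- `Ω[F⁄K]` is nontrivial for a function field in one variable (char 0). -/
theorem nontrivial_kaehler [CharZero K] {t : F} (ht : Transcendental K t)
    [Algebra.IsAlgebraic K⟮t⟯ F] : Nontrivial Ω[F⁄K] :=
  ⟨⟨D K F t, 0, D_ne_zero ht⟩⟩

/-- Every differential is a multiple of `dt`. -/
theorem exists_eq_smul_D [CharZero K] (t : F) [Algebra.IsAlgebraic K⟮t⟯ F] (ω : Ω[F⁄K]) :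
    ∃ f : F, ω = f • D K F t := by
  have hω : ω ∈ (⊤ : Submodule F Ω[F⁄K]) := Submodule.mem_top
  rw [← span_D_eq_top t, Submodule.mem_span_singleton] at hω
  exact hω.imp fun _ hf => hf.symm

/-- The coefficient of a differential w.r.t. `dt` is unique. -/
theorem smul_D_injective [CharZero K] {t : F} (ht : Transcendental K t)
    [Algebra.IsAlgebraic K⟮t⟯ F] {f g : F} (h : f • D K F t = g • D K F t) : f = g := by
  have key : (f - g) • D K F t = 0 := by rw [sub_smul, h, sub_self]
  rcases smul_eq_zero.mp key with h | h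
  · exact sub_eq_zero.mp h
  · exact absurd h (D_ne_zero ht)

end

end Fermat.Agent.S24.FF
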