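import Mathlib
import Fermat.Agent.S24.FF.PlaceBasic

/-! # S24 layer (A), file 1: function fields in one variable, instance packaging.

Two ways to talk about "`F` is finite over `K(x)`":
* element form: `x : F`, `Transcendental K x`, `FiniteDimensional K⟮x⟯ F`  (used by CONSUMERS);
* instance form: `[Algebra K[X] F] [Algebra (RatFunc K) F]` + scalar towers +
  `[FiniteDimensional (RatFunc K) F]`, with `x = algebraMap K[X] F X`  (used INSIDE layer (A), so
  that Mathlib's Dedekind / `FunctionField` API applies).
`exists_ratFunc_instances` goes from the first to the second. -/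

set_option autoImplicit false

namespace Fermat.Agent.S24.FF

open AlgebraicCurve Polynomial IntermediateField

variable (K F : Type*) [Field K] [Field F] [Algebra K F]

/-- `F/K` is a function field in one variable. -/
def IsFF1 : Prop := ∃ x : F, Transcendental K x ∧ FiniteDimensional K⟮x⟯ F

variable {K F}

/-- instance packaging -/
theorem exists_ratFunc_instances {x : F} (hx : Transcendental K x)
    (hfin : FiniteDimensional K⟮x⟯ F) :
    ∃ (_ : Algebra K[X] F) (_ : Algebra (RatFunc K) F),
      IsScalarTower K K[X] F ∧ IsScalarTower K[X] (RatFunc K) F ∧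
      IsScalarTower K (RatFunc K) F ∧ FiniteDimensional (RatFunc K) F ∧
      algebraMap K[X] F X = x ∧
      Module.finrank (RatFunc K) F = Module.finrank K⟮x⟯ F := by
  classical
  let e : RatFunc K ≃ₐ[K] K⟮x⟯ := RatFunc.algEquivOfTranscendental x hx
  let φ : RatFunc K →ₐ[K] F := (K⟮x⟯.val).comp e.toAlgHom
  let a1 : Algebra K[X] F := (aeval x : K[X] →ₐ[K] F).toRingHom.toAlgebra
  let a2 : Algebra (RatFunc K) F := φ.toRingHom.toAlgebra
  have h1 : ∀ p : K[X], algebraMap K[X] F p = aeval x p := fun p => rfl
  have h2 : ∀ r : RatFunc K, algebraMap (RatFunc K) F r = ((e r : K⟮x⟯) : F) := fun r => rfl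
  have t1 : IsScalarTower K K[X] F := IsScalarTower.of_algebraMap_eq fun a => by
    rw [h1, Polynomial.algebraMap_apply, Algebra.algebraMap_self_apply, aeval_C]
  have t2 : IsScalarTower K[X] (RatFunc K) F := IsScalarTower.of_algebraMap_eq fun p => by
    rw [h1, h2]
    show _ = ((RatFunc.algEquivOfTranscendental x hx (algebraMap K[X] (RatFunc K) p) : K⟮x⟯) : F)
    rw [RatFunc.algEquivOfTranscendental_algebraMap, AdjoinSimple.coe_aeval_gen_apply]
  have t3 : IsScalarTower K (RatFunc K) F := IsScalarTower.of_algebraMap_eq fun a => by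
    rw [h2, AlgEquiv.commutes]
    rfl
  have hc : (algebraMap (RatFunc K) F).comp (e.symm.toRingEquiv : K⟮x⟯ →+* RatFunc K) =
      ((RingEquiv.refl F : F ≃+* F) : F →+* F).comp (algebraMap K⟮x⟯ F) := by
    ext y
    simp only [RingHom.coe_comp, Function.comp_apply, RingHom.coe_coe]
    rw [h2]
    simp
  have t4 : FiniteDimensional (RatFunc K) F :=
    Module.Finite.of_equiv_equiv (A₁ := K⟮x⟯) (B₁ := F) (A₂ := RatFunc K) (B₂ := F)
      e.symm.toRingEquiv (RingEquiv.refl F) hc
  refine ⟨a1, a2, t1, t2, t3, t4, ?_, ?_⟩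
  · rw [h1, aeval_X]
  · exact (Algebra.finrank_eq_of_equiv_equiv (R₀ := K⟮x⟯) (S₀ := F) (R₁ := RatFunc K) (S₁ := F)
      e.symm.toRingEquiv (RingEquiv.refl F) hc).symm

/-- In a function field in one variable, `F` is finite over `K(y)` for EVERY transcendental `y`
(Mathlib: `finiteDimensional_of_adjoin_transcendental`). -/
theorem IsFF1.finiteDimensional (h : IsFF1 K F) {y : F} (hy : Transcendental K y) :
    FiniteDimensional K⟮y⟯ F := by
  obtain ⟨x, hx, hfin⟩ := h
  obtain ⟨a1, a2, t1, t2, t3, t4, -, -⟩ := exists_ratFunc_instances hx hfin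
  exact FunctionField.finiteDimensional_of_adjoin_transcendental (F := K) (K := F) hy

/-- `K` algebraically closed: an element of `F` outside `K` is transcendental. -/
theorem transcendental_of_not_mem_range [IsAlgClosed K] {y : F}
    (hy : y ∉ Set.range (algebraMap K F)) : Transcendental K y := by
  intro halg
  have hint : IsIntegral K y := halg.isIntegral
  have : Algebra.IsAlgebraic K K⟮y⟯ := IntermediateField.isAlgebraic_adjoin_simple hint
  have hbot : K⟮y⟯ = ⊥ := IntermediateField.eq_bot_of_isAlgClosed_of_isAlgebraic K⟮y⟯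
  have hmem : y ∈ (⊥ : IntermediateField K F) := hbot ▸ mem_adjoin_simple_self K y
  exact hy (IntermediateField.mem_bot.mp hmem)

/-- an element with a zero or a pole is transcendental -/
theorem transcendental_of_ord_ne_zero [IsAlgClosed K] (v : Place K F) {y : F}
    (hy : v.ord y ≠ 0) : Transcendental K y := by
  refine transcendental_of_not_mem_range ?_
  rintro ⟨a, rfl⟩
  exact hy (ord_algebraMap v a)

/-- `K(y) = K(1/y) = K(y - c)`: degrees agree -/
theorem finrank_adjoin_inv (y : F) :
    Module.finrank K⟮y⁻¹⟯ F = Module.finrank K⟮y⟯ F := by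
  have : K⟮y⁻¹⟯ = K⟮y⟯ := by
    apply le_antisymm
    · rw [adjoin_simple_le_iff]
      exact inv_mem (mem_adjoin_simple_self K y)
    · rw [adjoin_simple_le_iff]
      have := inv_mem (mem_adjoin_simple_self K y⁻¹)
      rwa [inv_inv] at this
  rw [this]

theorem finrank_adjoin_sub_const (y : F) (c : K) :
    Module.finrank K⟮y - algebraMap K F c⟯ F = Module.finrank K⟮y⟯ F := by
  have : K⟮y - algebraMap K F c⟯ = K⟮y⟯ := by
    apply le_antisymm
    · rw [adjoin_simple_le_iff]
      exact sub_mem (mem_adjoin_simple_self K y) (IntermediateField.algebraMap_mem _ c)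
    · rw [adjoin_simple_le_iff]
      have := add_mem (mem_adjoin_simple_self K (y - algebraMap K F c))
        (IntermediateField.algebraMap_mem K⟮y - algebraMap K F c⟯ c)
      rwa [sub_add_cancel] at this
  rw [this]

end Fermat.Agent.S24.FF
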