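import Mathlib
import Fermat.Agent.S24.FF.Setup
import Fermat.Agent.S24.FF.PlaceOfDedekind
import Fermat.Agent.S24.FF.EssFinite

/-! # S24 layer (A), file A1 (owner helper17): every nontrivial valuation subring of `F` containing
`K` is a `Place` with residue field `K` (it is the localisation of the integral closure of `K[x]`
or `K[1/x]` at a maximal ideal).  `K` alg. closed char 0, `F/K` function field in one variable. -/

set_option autoImplicit false

namespace Fermat.Agent.S24.FF

open AlgebraicCurve Polynomial IntermediateField IsDedekindDomain IsDedekindDomain.HeightOneSpectrum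

section Generic

variable {F : Type*} [Field F]
variable {R : Type*} [CommRing R] [IsDedekindDomain R] [Algebra R F] [IsFractionRing R F]

/-- Valuation-subring form of (A1-core): a valuation subring `A ≠ ⊤` of `F = Frac R` containing
the Dedekind domain `R` is the valuation ring of a height-one prime of `R`. -/
theorem exists_heightOneSpectrum_of_valuationSubring (A : ValuationSubring F) (hA : A ≠ ⊤)
    (hR : ∀ r : R, algebraMap R F r ∈ A) :
    ∃ w : HeightOneSpectrum R, A = (w.valuation F).valuationSubring := by
  let w : HeightOneSpectrum R := ⟨centre A hR, inferInstance, centre_ne_bot A hR hA⟩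
  refine ⟨w, ?_⟩
  rw [← valuationSubringAtPrime_eq_valuationSubring]
  refine (ValuationSubring.eq_of_le_of_ne_top _ ?_ hA).symm
  intro x hx
  have hx' : w.valuation F x ≤ 1 := by
    rw [valuationSubringAtPrime_eq_valuationSubring] at hx
    exact hx
  obtain ⟨n, d, hnd⟩ := exists_primeCompl_mul_eq_of_integer w x hx'
  have hd : (d : R) ∉ centre A hR := d.2
  rw [mem_centre_iff, IsLocalRing.mem_maximalIdeal, mem_nonunits_iff, not_not] at hd
  obtain ⟨u, hu⟩ := hd
  have h1 : ((u : A) : F) = algebraMap R F d := by rw [hu]
  have h2 : ((u : A) : F) * (((u⁻¹ : Aˣ) : A) : F) = 1 := by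
    rw [← MulMemClass.coe_mul, Units.mul_inv]; rfl
  have hx2 : x = algebraMap R F n * (((u⁻¹ : Aˣ) : A) : F) := by
    rw [← hnd, ← h1, mul_assoc, h2, mul_one]
  rw [hx2]
  exact A.mul_mem _ _ (hR n) (SetLike.coe_mem _)

end Generic


section Generic2

variable {K F : Type*} [Field K] [Field F] [Algebra K F]
variable {R : Type*} [CommRing R] [IsDedekindDomain R] [Algebra R F] [IsFractionRing R F]
  [Algebra K R] [IsScalarTower K R F]

/-- If the valuation ring of the place `v` is that of the height-one prime `w` of `R`, and the
residue field of `R` at `w` is `K`, then the residue field of `v` is `K`. -/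
theorem exists_sub_mem_maximalIdeal_of_eq (v : Place K F) (w : HeightOneSpectrum R)
    (h : v.toValuationSubring = (w.valuation F).valuationSubring)
    (hres : ∀ b : R, ∃ a : K, b - algebraMap K R a ∈ w.asIdeal) (r : v.toValuationSubring) :
    ∃ a : K, r - algebraMap K v.toValuationSubring a ∈
      IsLocalRing.maximalIdeal v.toValuationSubring := by
  have hr : w.valuation F (r : F) ≤ 1 := (mem_iff_of_eq v w h _).mp r.2
  obtain ⟨n, d, hnd⟩ := exists_primeCompl_mul_eq_of_integer w (r : F) hr
  obtain ⟨an, han⟩ := hres n
  obtain ⟨ad, had⟩ := hres d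
  have had0 : ad ≠ 0 := by
    rintro rfl
    rw [map_zero, sub_zero] at had
    exact d.2 had
  refine ⟨an / ad, ?_⟩
  rw [IsLocalRing.mem_maximalIdeal, mem_nonunits_iff]
  intro hunit
  obtain ⟨u, hu⟩ := hunit
  have hval1 : w.valuation F ((r : F) - algebraMap K F (an / ad)) = 1 := by
    have := valuation_unit_of_eq v w h u
    rw [hu] at this
    exact this
  -- but `(r - a) * d ∈ w`
  have hmem : (n - algebraMap K R an) - algebraMap K R (an / ad) * ((d : R) - algebraMap K R ad)
      ∈ w.asIdeal :=
    w.asIdeal.sub_mem han (w.asIdeal.mul_mem_left _ had)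
  have hlt : w.valuation F (algebraMap R F ((n - algebraMap K R an) -
      algebraMap K R (an / ad) * ((d : R) - algebraMap K R ad))) < 1 :=
    (valuation_lt_one_iff_mem (K := F) w _).mpr hmem
  have hkey : algebraMap R F ((n - algebraMap K R an) - algebraMap K R (an / ad) *
      ((d : R) - algebraMap K R ad)) = ((r : F) - algebraMap K F (an / ad)) * algebraMap R F d := by
    rw [sub_mul, hnd]
    simp only [map_sub, map_mul, ← IsScalarTower.algebraMap_apply K R F]
    have : algebraMap K F (an / ad) * algebraMap K F ad = algebraMap K F an := by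
      rw [← map_mul, div_mul_cancel₀ _ had0]
    linear_combination this
  rw [hkey, map_mul, hval1, one_mul] at hlt
  have hd1 : w.valuation F (algebraMap R F d) = 1 := (valuation_eq_one_iff_notMem (K := F) (v := w)).mpr d.2
  rw [hd1] at hlt
  exact lt_irrefl _ hlt

end Generic2

section Core

variable {K F : Type*} [Field K] [Field F] [Algebra K F]
variable [Algebra K[X] F] [IsScalarTower K K[X] F]

/-- A valuation subring containing `K` and `x` contains `K[x]`. -/
theorem polynomial_algebraMap_mem' (A : ValuationSubring F) (hK : ∀ a : K, algebraMap K F a ∈ A)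
    (hx : algebraMap K[X] F X ∈ A) (p : K[X]) : algebraMap K[X] F p ∈ A := by
  induction p using Polynomial.induction_on with
  | C a =>
    have : algebraMap K[X] F (C a) = algebraMap K F a := by
      rw [← Polynomial.algebraMap_eq, ← IsScalarTower.algebraMap_apply]
    rw [this]
    exact hK a
  | add p q hp hq =>
    rw [map_add]
    exact A.add_mem _ _ hp hq
  | monomial n a h =>
    rw [pow_succ, ← mul_assoc, map_mul]
    exact A.mul_mem _ _ h hx

/-- Instance form of A1: a valuation subring `A ≠ ⊤` containing `K` and `x` is the valuation ring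
of a height-one prime of the integral closure of `K[x]`. -/
theorem exists_heightOneSpectrum_integralClosure [IsDedekindDomain (integralClosure K[X] F)]
    [IsFractionRing (integralClosure K[X] F) F] (A : ValuationSubring F) (hA : A ≠ ⊤)
    (hK : ∀ a : K, algebraMap K F a ∈ A) (hx : algebraMap K[X] F X ∈ A) :
    ∃ w : HeightOneSpectrum (integralClosure K[X] F), A = (w.valuation F).valuationSubring :=
  exists_heightOneSpectrum_of_valuationSubring A hA fun b =>
    mem_of_isIntegral_of_le A (polynomial_algebraMap_mem' A hK hx) b.2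

variable [CharZero K] [Algebra (RatFunc K) F] [IsScalarTower K[X] (RatFunc K) F]
  [FiniteDimensional (RatFunc K) F]

/-- Instance form of A1: a valuation subring `A ≠ ⊤` containing `K` and `x` is a place. -/
theorem exists_place_of_valuationSubring_core (A : ValuationSubring F) (hA : A ≠ ⊤)
    (hK : ∀ a : K, algebraMap K F a ∈ A) (hx : algebraMap K[X] F X ∈ A) :
    ∃ v : Place K F, v.toValuationSubring = A := by
  have : IsDedekindDomain (integralClosure K[X] F) :=
    integralClosure.isDedekindDomain K[X] (RatFunc K) F
  have : IsFractionRing (integralClosure K[X] F) F :=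
    integralClosure.isFractionRing_of_finite_extension (RatFunc K) F
  obtain ⟨w, hw⟩ := exists_heightOneSpectrum_integralClosure A hA hK hx
  exact ⟨Place.ofHeightOneSpectrum (K := K) w, by
    rw [Place.ofHeightOneSpectrum_toValuationSubring, hw]⟩

end Core

section Core2

variable {K F : Type*} [Field K] [Field F] [Algebra K F] [IsAlgClosed K] [CharZero K]
variable [Algebra K[X] F] [IsScalarTower K K[X] F]
variable [Algebra (RatFunc K) F] [IsScalarTower K[X] (RatFunc K) F]
  [FiniteDimensional (RatFunc K) F]

/-- The residue field of the integral closure of `K[x]` at a maximal ideal is `K`. -/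
theorem exists_sub_mem_asIdeal [IsDedekindDomain (integralClosure K[X] F)]
    (w : HeightOneSpectrum (integralClosure K[X] F)) (b : integralClosure K[X] F) :
    ∃ a : K, b - algebraMap K (integralClosure K[X] F) a ∈ w.asIdeal := by
  have hmax : w.asIdeal.IsMaximal := w.isMaximal
  let _ : Field (integralClosure K[X] F ⧸ w.asIdeal) := Ideal.Quotient.field w.asIdeal
  have hfin : Module.Finite K[X] (integralClosure K[X] F) :=
    IsIntegralClosure.finite K[X] (RatFunc K) F (integralClosure K[X] F)
  have hft1 : Algebra.FiniteType K[X] (integralClosure K[X] F) := inferInstance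
  have hft2 : Algebra.FiniteType K (integralClosure K[X] F) :=
    Algebra.FiniteType.trans (inferInstance : Algebra.FiniteType K K[X]) hft1
  have hft3 : Algebra.FiniteType K (integralClosure K[X] F ⧸ w.asIdeal) :=
    Algebra.FiniteType.of_surjective (Ideal.Quotient.mkₐ K w.asIdeal)
      (Ideal.Quotient.mkₐ_surjective K w.asIdeal)
  have hfin2 : Module.Finite K (integralClosure K[X] F ⧸ w.asIdeal) :=
    finite_of_finite_type_of_isJacobsonRing K _
  have hint : Algebra.IsIntegral K (integralClosure K[X] F ⧸ w.asIdeal) :=
    Algebra.IsIntegral.of_finite K _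
  obtain ⟨a, ha⟩ := (IsAlgClosed.algebraMap_bijective_of_isIntegral (k := K)
    (K := integralClosure K[X] F ⧸ w.asIdeal)).2 (Ideal.Quotient.mk w.asIdeal b)
  refine ⟨a, ?_⟩
  rw [← Ideal.Quotient.eq]
  rw [← ha]
  rfl

end Core2

variable {K F : Type*} [Field K] [Field F] [Algebra K F] [IsAlgClosed K] [CharZero K]

omit [IsAlgClosed K] [CharZero K] in
theorem transcendental_inv' {x : F} (hx : Transcendental K x) : Transcendental K x⁻¹ := by
  intro h
  apply hx
  have := h.inv
  rwa [inv_inv] at this

/-- A1 (valuation-subring form): every valuation subring `A ≠ ⊤` of `F` containing `K` is a place.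
[`y := x` or `1/x` lies in `A`; `A ⊇ B :=` integral closure of `K[y]`; `P := 𝔪_A ∩ B ≠ 0`;
`B_P ⊆ A` and `B_P` is a DVR, hence a maximal proper subring of `F`, so `A = B_P`.] -/
theorem exists_place_of_valuationSubring (hF : IsFF1 K F) (A : ValuationSubring F) (hA : A ≠ ⊤)
    (hK : ∀ a : K, algebraMap K F a ∈ A) : ∃ v : Place K F, v.toValuationSubring = A := by
  obtain ⟨x, hx, hfin⟩ := hF
  -- choose `y ∈ {x, x⁻¹}` in `A`
  obtain ⟨y, hy, hyA⟩ : ∃ y : F, Transcendental K y ∧ y ∈ A := by
    rcases A.mem_or_inv_mem x with h | h
    · exact ⟨x, hx, h⟩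
    · exact ⟨x⁻¹, transcendental_inv' hx, h⟩
  have hfin' : FiniteDimensional K⟮y⟯ F := IsFF1.finiteDimensional ⟨x, hx, hfin⟩ hy
  obtain ⟨i1, i2, h1, h2, h3, h4, h5, h6⟩ := exists_ratFunc_instances hy hfin'
  exact exists_place_of_valuationSubring_core A hA hK (by rw [h5]; exact hyA)

/-- In instance form: the residue field of a place whose valuation ring contains `x` is `K`. -/
theorem exists_sub_mem_maximalIdeal_core [Algebra K[X] F] [IsScalarTower K K[X] F]
    [Algebra (RatFunc K) F] [IsScalarTower K[X] (RatFunc K) F] [FiniteDimensional (RatFunc K) F]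
    (v : Place K F) (hx : algebraMap K[X] F X ∈ v.toValuationSubring)
    (r : v.toValuationSubring) :
    ∃ a : K, r - algebraMap K v.toValuationSubring a ∈
      IsLocalRing.maximalIdeal v.toValuationSubring := by
  have : IsDedekindDomain (integralClosure K[X] F) :=
    integralClosure.isDedekindDomain K[X] (RatFunc K) F
  have : IsFractionRing (integralClosure K[X] F) F :=
    integralClosure.isFractionRing_of_finite_extension (RatFunc K) F
  obtain ⟨w, hw⟩ := exists_heightOneSpectrum_integralClosure v.toValuationSubring v.ne_top'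
    v.algebraMap_mem' hx
  exact exists_sub_mem_maximalIdeal_of_eq v w hw (exists_sub_mem_asIdeal w) r

/-- The residue field of every place is `K`: every element of `O_v` is congruent to a constant
modulo the maximal ideal. -/
theorem exists_sub_mem_maximalIdeal (hF : IsFF1 K F) (v : Place K F)
    (r : v.toValuationSubring) :
    ∃ a : K, r - algebraMap K v.toValuationSubring a ∈
      IsLocalRing.maximalIdeal v.toValuationSubring := by
  obtain ⟨x, hx, hfin⟩ := hF
  obtain ⟨y, hy, hyA⟩ : ∃ y : F, Transcendental K y ∧ y ∈ v.toValuationSubring := by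
    rcases v.toValuationSubring.mem_or_inv_mem x with h | h
    · exact ⟨x, hx, h⟩
    · exact ⟨x⁻¹, transcendental_inv' hx, h⟩
  have hfin' : FiniteDimensional K⟮y⟯ F := IsFF1.finiteDimensional ⟨x, hx, hfin⟩ hy
  obtain ⟨i1, i2, h1, h2, h3, h4, h5, h6⟩ := exists_ratFunc_instances hy hfin'
  exact exists_sub_mem_maximalIdeal_core v (by rw [h5]; exact hyA) r

/-- A1: the residue field of every place is `K`. -/
theorem residueField_bijective (hF : IsFF1 K F) (v : Place K F) :
    Function.Bijective (algebraMap K v.ResidueField) := by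
  refine ⟨(algebraMap K v.ResidueField).injective, fun z => ?_⟩
  obtain ⟨r, rfl⟩ := IsLocalRing.residue_surjective z
  obtain ⟨a, ha⟩ := exists_sub_mem_maximalIdeal hF v r
  refine ⟨a, ?_⟩
  have h1 : IsLocalRing.residue v.toValuationSubring (r - algebraMap K v.toValuationSubring a)
      = 0 := (IsLocalRing.residue_eq_zero_iff _).mpr ha
  rw [map_sub, sub_eq_zero] at h1
  rw [h1]
  rfl

theorem deg_eq_one (hF : IsFF1 K F) (v : Place K F) : v.deg = 1 := by
  have hb := residueField_bijective hF v
  let e : K ≃ₐ[K] v.ResidueField := AlgEquiv.ofBijective (Algebra.ofId K v.ResidueField) hb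
  have := e.toLinearEquiv.finrank_eq
  rw [Module.finrank_self] at this
  exact this.symm

/-- A1: the value of `f ∈ O_v` at `v`. -/
theorem exists_const_sub_ord_pos (hF : IsFF1 K F) (v : Place K F) {f : F} (hf : 0 ≤ v.ord f) :
    ∃ a : K, f = algebraMap K F a ∨ 0 < v.ord (f - algebraMap K F a) := by
  have hfm : f ∈ v.toValuationSubring := mem_of_ord_nonneg v hf
  obtain ⟨a, ha⟩ := exists_sub_mem_maximalIdeal hF v ⟨f, hfm⟩
  refine ⟨a, ?_⟩
  by_cases h0 : f = algebraMap K F a
  · exact Or.inl h0
  · right
    have hne : (⟨f, hfm⟩ - algebraMap K v.toValuationSubring a : v.toValuationSubring) ≠ 0 := by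
      intro h
      apply h0
      have := congrArg (Subtype.val) h
      simpa [sub_eq_zero] using this
    have := (ord_pos_iff_mem_maximalIdeal v _ hne).mpr ha
    simpa using this

/-- `f = a + t * f₁` with `a ∈ K`, `f₁ ∈ O_v`, for a uniformizer `t`. -/
theorem exists_eq_const_add_mul (hF : IsFF1 K F) (v : Place K F) {t : F} (ht : v.ord t = 1) {f : F}
    (hf : 0 ≤ v.ord f) : ∃ (a : K) (f₁ : F), 0 ≤ v.ord f₁ ∧ f = algebraMap K F a + t * f₁ := by
  have ht0 : t ≠ 0 := by
    rintro rfl
    simp at ht
  obtain ⟨a, ha | ha⟩ := exists_const_sub_ord_pos hF v hf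
  · exact ⟨a, 0, by simp, by rw [ha]; simp⟩
  · have hne : f - algebraMap K F a ≠ 0 := by
      intro h
      rw [h] at ha
      simp at ha
    refine ⟨a, (f - algebraMap K F a) / t, ?_, ?_⟩
    · rw [ord_div v hne ht0, ht]
      omega
    · field_simp
      ring

/-- A1: the residue field of every place is `K` (surjectivity form, the hypothesis `hres` of
`FF.DiffOrd`). -/
theorem residue_surjective (hF : IsFF1 K F) (v : Place K F) :
    Function.Surjective (algebraMap K v.ResidueField) :=
  (residueField_bijective hF v).2

/-- A1: the valuation ring of every place is essentially of finite type over `K` (the instance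
hypothesis of `FF.DiffOrd`): it is a localisation of the integral closure of `K[y]`, `y = x` or
`1/x`. -/
theorem essFiniteType (hF : IsFF1 K F) (v : Place K F) :
    Algebra.EssFiniteType K v.toValuationSubring := by
  obtain ⟨x, hx, hfin⟩ := hF
  obtain ⟨y, hy, hyA⟩ : ∃ y : F, Transcendental K y ∧ y ∈ v.toValuationSubring := by
    rcases v.toValuationSubring.mem_or_inv_mem x with h | h
    · exact ⟨x, hx, h⟩
    · exact ⟨x⁻¹, transcendental_inv' hx, h⟩
  have hfin' : FiniteDimensional K⟮y⟯ F := IsFF1.finiteDimensional ⟨x, hx, hfin⟩ hy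
  obtain ⟨i1, i2, h1, h2, h3, h4, h5, h6⟩ := exists_ratFunc_instances hy hfin'
  exact EssFinite.essFiniteType_of_X_mem v (by rw [h5]; exact hyA)

/-- uniformizers are transcendental -/
theorem transcendental_of_ord_eq_one (v : Place K F) {t : F} (ht : v.ord t = 1) :
    Transcendental K t :=
  transcendental_of_ord_ne_zero v (by rw [ht]; exact one_ne_zero)

end Fermat.Agent.S24.FF
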