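import Mathlib
import Fermat.Agent.S24.FF.KaehlerRank
import Fermat.Agent.S24.FF.PlaceA1
import Fermat.Agent.S24.FF.EssFinite
import Fermat.Agent.S24.FF.DiffOrd

/-! # S24 layer (A), file A3' : `IsFF1` forms of helper28's `KaehlerRank.lean` + the prelude's private
uniformizer. -/

set_option autoImplicit false

namespace Fermat.Agent.S24.FF

open AlgebraicCurve Polynomial IntermediateField KaehlerDifferential

variable {K F : Type*} [Field K] [Field F] [Algebra K F] [IsAlgClosed K] [CharZero K]

/-! ## A3: `Ω[F/K]` is free of rank one on `dt` for every transcendental `t`. -/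

theorem IsFF1.span_D_eq_top (hF : IsFF1 K F) {t : F} (ht : Transcendental K t) :
    Submodule.span F {D K F t} = ⊤ := by
  have := hF.finiteDimensional ht
  exact Fermat.Agent.S24.FF.span_D_eq_top t

theorem IsFF1.D_ne_zero (hF : IsFF1 K F) {t : F} (ht : Transcendental K t) : D K F t ≠ 0 := by
  have := hF.finiteDimensional ht
  exact Fermat.Agent.S24.FF.D_ne_zero ht

theorem IsFF1.nontrivial_kaehler (hF : IsFF1 K F) : Nontrivial Ω[F⁄K] := by
  obtain ⟨x, hx, hfin⟩ := hF
  exact ⟨⟨D K F x, 0, IsFF1.D_ne_zero ⟨x, hx, hfin⟩ hx⟩⟩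

/-- the chosen (private) uniformizer of the prelude -/
theorem exists_dCoord_eq (v : Place K F) :
    ∃ t : F, v.ord t = 1 ∧ v.dCoord = D K F t :=
  DiffOrd.exists_dCoord_eq v

theorem dCoordGenerates (hF : IsFF1 K F) (v : Place K F) : v.DCoordGenerates := by
  obtain ⟨t, ht, h⟩ := exists_dCoord_eq v
  exact ⟨by rw [h]; exact hF.span_D_eq_top (transcendental_of_ord_eq_one v ht)⟩

/-- uniqueness of the coefficient -/
theorem IsFF1.smul_D_injective (hF : IsFF1 K F) {t : F} (ht : Transcendental K t) {g₁ g₂ : F}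
    (h : g₁ • D K F t = g₂ • D K F t) : g₁ = g₂ := by
  have h1 : (g₁ - g₂) • D K F t = 0 := by rw [sub_smul, h, sub_self]
  rcases smul_eq_zero.mp h1 with h2 | h2
  · exact sub_eq_zero.mp h2
  · exact absurd h2 (hF.D_ne_zero ht)

end Fermat.Agent.S24.FF
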