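import Mathlib
import Fermat.Agent.S24.FF.KaehlerFF

/-! # S24 layer (A), files A4 + A5 (owner helper19): regularity of differentials at a place and the
order of `dy`, for function fields in one variable (`IsFF1`) over an algebraically closed field of
characteristic zero.  Wrappers around the generic file `DiffOrd.lean`. -/

set_option autoImplicit false

namespace Fermat.Agent.S24.FF

open AlgebraicCurve Polynomial IntermediateField KaehlerDifferential

variable {K F : Type*} [Field K] [Field F] [Algebra K F] [IsAlgClosed K] [CharZero K]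

/-! ## A4: regularity. `Ω[O_v/K]` is generated by `dt` (Nakayama; `O_v` is essentially of finite
type over `K`, `f = a + t f₁` gives `Ω = O_v dt + t Ω`). -/

theorem exists_ord_nonneg_smul_D (hF : IsFF1 K F) (v : Place K F) {t : F} (ht : v.ord t = 1)
    {f : F} (hf : 0 ≤ v.ord f) : ∃ g : F, 0 ≤ v.ord g ∧ D K F f = g • D K F t := by
  have := essFiniteType hF v
  obtain ⟨g, hg, h⟩ := DiffOrd.exists_D_eq_smul v (residueField_bijective hF v).2 ht
    (DiffOrd.mem_of_ord_nonneg v hf)
  exact ⟨g, DiffOrd.ord_nonneg_of_mem v hg, h⟩

/-- independence of the uniformizer: the order of `f dt` is `ord f` for every uniformizer `t`. -/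
theorem ordDifferential_smul_D (hF : IsFF1 K F) (v : Place K F) {t : F} (ht : v.ord t = 1)
    (f : F) : v.ordDifferential (f • D K F t) = v.ord f := by
  have := essFiniteType hF v
  have := hF.nontrivial_kaehler
  exact DiffOrd.ordDifferential_smul_D v (residueField_bijective hF v).2 ht f

/-! ## A5: the order of `dy`. -/

/-- for a uniformizer `t` and `y` with `ord y ≠ 0`: `dy = g dt` with `ord g = ord y - 1`
(char. 0). -/
theorem exists_smul_D_ord (hF : IsFF1 K F) (v : Place K F) {t : F} (ht : v.ord t = 1)
    {y : F} (hy : v.ord y ≠ 0) :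
    ∃ g : F, g ≠ 0 ∧ v.ord g = v.ord y - 1 ∧ D K F y = g • D K F t := by
  have := essFiniteType hF v
  exact DiffOrd.exists_D_eq_smul_of_ord_ne_zero v (residueField_bijective hF v).2 ht hy

/-- A5 in prelude terms. -/
theorem ordDifferential_D (hF : IsFF1 K F) (v : Place K F) {y : F} (hy : v.ord y ≠ 0) :
    v.ordDifferential (D K F y) = v.ord y - 1 := by
  have := essFiniteType hF v
  have := hF.nontrivial_kaehler
  exact DiffOrd.ordDifferential_D v (residueField_bijective hF v).2 hy

/-- `d(y - c) = dy` -/
theorem ordDifferential_D_sub_const (hF : IsFF1 K F) (v : Place K F) {y : F} (c : K)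
    (hy : v.ord (y - algebraMap K F c) ≠ 0) :
    v.ordDifferential (D K F y) = v.ord (y - algebraMap K F c) - 1 := by
  rw [← DiffOrd.D_sub_algebraMap y c]
  exact ordDifferential_D hF v hy

/-- multiplicativity in prelude terms (no side conditions except `h ≠ 0`, `ω ≠ 0`). -/
theorem ordDifferential_smul' (hF : IsFF1 K F) (v : Place K F) {h : F} (hh : h ≠ 0)
    {ω : Ω[F⁄K]} (hω : ω ≠ 0) :
    v.ordDifferential (h • ω) = v.ord h + v.ordDifferential ω := by
  have := dCoordGenerates hF v
  have := hF.nontrivial_kaehler
  refine v.ordDifferential_smul hh ?_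
  intro h0
  apply hω
  rw [← v.differentialCoeff_smul_dCoord ω, h0, zero_smul]

end Fermat.Agent.S24.FF
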