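import Mathlib
import Fermat.Agent.S24.FF.Setup
import Fermat.Agent.S24.FF.PlaceOfDedekind
import Fermat.Agent.S24.FF.DiffOrd

/-! # S24 layer (A), file FundId (A2 + A6): the fundamental identity `∑ e_v = n` in terms of
places, finiteness of zeros and poles, and `deg (div f) = 0`.

Final statements (exact skeleton names): `sum_ord_zerosOf_X`, `zerosOf_finite`, `polesOf_finite`,
`sum_ord_zerosOf`, `sum_ord_polesOf`, `ord_support_finite`, `sum_ord_eq_zero`.
Internal lemmas are prefixed `fundId`. -/

set_option autoImplicit false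

noncomputable section

namespace Fermat.Agent.S24.FF

open AlgebraicCurve Polynomial FunctionField IsDedekindDomain IntermediateField

section Core

variable (K F : Type*) [Field K] [Field F] [Algebra K[X] F] [Algebra (RatFunc K) F]
  [IsScalarTower K[X] (RatFunc K) F]

theorem fundId_isTorsionFree : Module.IsTorsionFree K[X] (ringOfIntegers K F) :=
  Module.isTorsionFree_iff_algebraMap_injective.mpr (ringOfIntegers.algebraMap_injective K F)

theorem fundId_flat : Module.Flat K[X] (ringOfIntegers K F) := by
  have := fundId_isTorsionFree K F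
  infer_instance

omit [Field F] [Algebra K[X] F] [Algebra (RatFunc K) F] [IsScalarTower K[X] (RatFunc K) F] in
theorem fundId_isMaximal_span_X_sub_C (c : K) : (Ideal.span {X - C c} : Ideal K[X]).IsMaximal :=
  PrincipalIdealRing.isMaximal_of_irreducible (irreducible_X_sub_C c)

theorem fundId_ne_bot (c : K) {q : Ideal (ringOfIntegers K F)}
    (hq : q ∈ (Ideal.span {X - C c} : Ideal K[X]).primesOver (ringOfIntegers K F)) : q ≠ ⊥ := by
  have : FaithfulSMul K[X] (ringOfIntegers K F) :=
    (faithfulSMul_iff_algebraMap_injective _ _).mpr (ringOfIntegers.algebraMap_injective K F)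
  exact Ideal.ne_bot_of_mem_primesOver
    (by rw [Ne, Ideal.span_singleton_eq_bot]; exact X_sub_C_ne_zero c) hq

/-- A finite field extension of an algebraically closed field has degree one. -/
theorem fundId_finrank_eq_one (k L : Type*) [Field k] [Field L] [Algebra k L]
    [IsAlgClosed k] [Algebra.IsIntegral k L] : Module.finrank k L = 1 := by
  have hb : Function.Bijective (algebraMap k L) := IsAlgClosed.algebraMap_bijective_of_isIntegral
  let e : k ≃ₗ[k] L := LinearEquiv.ofBijective (Algebra.linearMap k L) hb
  rw [← e.finrank_eq, Module.finrank_self]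

variable [FiniteDimensional (RatFunc K) F]

omit [FiniteDimensional (RatFunc K) F] in
theorem fundId_finrank_ringOfIntegers [FiniteDimensional (RatFunc K) F] :
    Module.finrank K[X] (ringOfIntegers K F) = Module.finrank (RatFunc K) F :=
  (IsFractionRing.finrank_eq K[X] (RatFunc K) (ringOfIntegers K F) F).symm

variable [Algebra.IsSeparable (RatFunc K) F]

theorem fundId_inertiaDeg_eq_one [IsAlgClosed K] (c : K) (q : Ideal (ringOfIntegers K F))
    [q.IsPrime] [q.LiesOver (Ideal.span {X - C c} : Ideal K[X])] :
    q.inertiaDeg K[X] = 1 := by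
  have hp := fundId_isMaximal_span_X_sub_C K c
  have hq : q.IsMaximal :=
    Ideal.IsMaximal.of_liesOver_isMaximal q (Ideal.span {X - C c} : Ideal K[X])
  rw [Ideal.inertiaDeg_eq_of_isMaximal (Ideal.span {X - C c} : Ideal K[X]) q]
  let _ : Field (K[X] ⧸ (Ideal.span {X - C c} : Ideal K[X])) := Ideal.Quotient.field _
  let _ : Field (ringOfIntegers K F ⧸ q) := Ideal.Quotient.field _
  have hac : IsAlgClosed (K[X] ⧸ (Ideal.span {X - C c} : Ideal K[X])) :=
    IsAlgClosed.of_ringEquiv K _ (Polynomial.quotientSpanXSubCAlgEquiv c).symm.toRingEquiv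
  exact fundId_finrank_eq_one _ _

theorem fundId_sum_ramificationIdx [IsAlgClosed K] (c : K)
    [Fintype ((Ideal.span {X - C c} : Ideal K[X]).primesOver (ringOfIntegers K F))] :
    ∑ q : (Ideal.span {X - C c} : Ideal K[X]).primesOver (ringOfIntegers K F),
      q.1.ramificationIdx K[X] = Module.finrank (RatFunc K) F := by
  have hp := fundId_isMaximal_span_X_sub_C K c
  have hflat := fundId_flat K F
  rw [← fundId_finrank_ringOfIntegers,
    ← Ideal.sum_ramification_inertia_eq_finrank (Ideal.span {X - C c} : Ideal K[X])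
      (ringOfIntegers K F)]
  refine Finset.sum_congr rfl fun q _ => ?_
  have := q.2.1
  have := q.2.2
  rw [fundId_inertiaDeg_eq_one K F c q.1, mul_one]

/-- The valuation of `x - c` at a prime over `(X - c)` is given by the ramification index. -/
theorem fundId_valuation_eq (c : K) (w : HeightOneSpectrum (ringOfIntegers K F))
    [w.asIdeal.LiesOver (Ideal.span {X - C c} : Ideal K[X])] :
    w.valuation F (algebraMap K[X] F (X - C c)) =
      WithZero.exp (-(w.asIdeal.ramificationIdx K[X] : ℤ)) := by
  have hne : algebraMap K[X] (ringOfIntegers K F) (X - C c) ≠ 0 := by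
    rw [Ne, map_eq_zero_iff _ (ringOfIntegers.algebraMap_injective K F)]
    exact X_sub_C_ne_zero c
  have hmap : (Ideal.span {X - C c} : Ideal K[X]).map (algebraMap K[X] (ringOfIntegers K F)) =
      Ideal.span {algebraMap K[X] (ringOfIntegers K F) (X - C c)} := by
    rw [Ideal.map_span, Set.image_singleton]
  have hne' : (Ideal.span {X - C c} : Ideal K[X]).map
      (algebraMap K[X] (ringOfIntegers K F)) ≠ ⊥ := by
    rw [hmap, Ne, Ideal.span_singleton_eq_bot]
    exact hne
  have hpr := w.isPrime
  rw [IsScalarTower.algebraMap_apply K[X] (ringOfIntegers K F) F, w.valuation_of_algebraMap,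
    w.intValuation_eq_exp_neg_multiplicity hne,
    Ideal.IsDedekindDomain.ramificationIdx_eq_multiplicity (Ideal.span {X - C c} : Ideal K[X])
      w.asIdeal hne', hmap]

end Core

section PlaceForm

variable {K F : Type*} [Field K] [Field F] [Algebra K F] [IsAlgClosed K] [CharZero K]
  [Algebra K[X] F] [Algebra (RatFunc K) F] [IsScalarTower K K[X] F]
  [IsScalarTower K[X] (RatFunc K) F] [IsScalarTower K (RatFunc K) F]
  [FiniteDimensional (RatFunc K) F]

/-- `K`-algebra structure on the ring of integers. -/
@[reducible] def fundIdAlgebra : Algebra K (ringOfIntegers K F) :=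
  ((algebraMap K[X] (ringOfIntegers K F)).comp (algebraMap K K[X])).toAlgebra

attribute [local instance] fundIdAlgebra

omit [IsAlgClosed K] [CharZero K] [Algebra (RatFunc K) F] [IsScalarTower K[X] (RatFunc K) F]
  [IsScalarTower K (RatFunc K) F] [FiniteDimensional (RatFunc K) F] in
theorem fundId_isScalarTower : IsScalarTower K (ringOfIntegers K F) F :=
  IsScalarTower.of_algebraMap_eq fun a => by
    rw [IsScalarTower.algebraMap_apply K K[X] F,
      IsScalarTower.algebraMap_apply K[X] (ringOfIntegers K F) F]
    rfl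

attribute [local instance] fundId_isScalarTower

omit [Algebra K F] [IsAlgClosed K] [Algebra K[X] F] [IsScalarTower K K[X] F]
  [IsScalarTower K[X] (RatFunc K) F] [IsScalarTower K (RatFunc K) F] in
theorem fundId_isSeparable : Algebra.IsSeparable (RatFunc K) F := by
  have : CharZero (RatFunc K) :=
    charZero_of_injective_algebraMap (algebraMap K (RatFunc K)).injective
  exact Algebra.IsAlgebraic.isSeparable_of_perfectField

attribute [local instance] fundId_isSeparable

/-- The place attached to a prime over `(X - c)`. -/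
def fundIdPlace (c : K)
    (q : (Ideal.span {X - C c} : Ideal K[X]).primesOver (ringOfIntegers K F)) : Place K F :=
  Place.ofHeightOneSpectrum (K := K) (F := F)
    (⟨q.1, q.2.1, fundId_ne_bot K F c q.2⟩ : HeightOneSpectrum (ringOfIntegers K F))

theorem fundIdPlace_ord (c : K)
    (q : (Ideal.span {X - C c} : Ideal K[X]).primesOver (ringOfIntegers K F)) :
    (fundIdPlace c q).ord (algebraMap K[X] F (X - C c)) = (q.1.ramificationIdx K[X] : ℤ) := by
  have := q.2.2
  unfold fundIdPlace
  rw [ord_ofHeightOneSpectrum]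
  have h := fundId_valuation_eq K F c (⟨q.1, q.2.1, fundId_ne_bot K F c q.2⟩ :
      HeightOneSpectrum (ringOfIntegers K F))
  rw [h, WithZero.log_exp, neg_neg]

theorem fundIdPlace_injective (c : K) : Function.Injective (fundIdPlace (K := K) (F := F) c) := by
  intro q₁ q₂ h
  have h' := ofHeightOneSpectrum_injective (K := K) (F := F) h
  apply Subtype.ext
  exact congrArg HeightOneSpectrum.asIdeal h'

theorem fundIdPlace_surjOn (c : K) (v : Place K F)
    (hv : 0 < v.ord (algebraMap K[X] F (X - C c))) :
    ∃ q, fundIdPlace (K := K) (F := F) c q = v := by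
  have hxc : algebraMap K[X] F (X - C c) ∈ v.toValuationSubring :=
    DiffOrd.mem_of_ord_nonneg v hv.le
  have hx : algebraMap K[X] F X ∈ v.toValuationSubring := by
    have h1 : algebraMap K[X] F X = algebraMap K[X] F (X - C c) + algebraMap K F c := by
      rw [IsScalarTower.algebraMap_apply K K[X] F, ← map_add, Polynomial.algebraMap_apply,
        Algebra.algebraMap_self_apply, sub_add_cancel]
    rw [h1]
    exact v.toValuationSubring.add_mem _ _ hxc (v.algebraMap_mem' c)
  have hR : ∀ r : ringOfIntegers K F, algebraMap (ringOfIntegers K F) F r ∈ v.toValuationSubring :=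
    integralClosure_mem v hx
  obtain ⟨w, hw⟩ := exists_heightOneSpectrum_of_le (K := K) (R := ringOfIntegers K F) v hR
  have hp := fundId_isMaximal_span_X_sub_C K c
  have hne0 : algebraMap K[X] F (X - C c) ≠ 0 := by
    intro h0
    rw [h0, Place.ord_zero] at hv
    exact lt_irrefl _ hv
  have hlt : w.valuation F (algebraMap K[X] F (X - C c)) < 1 := by
    rw [hw, ord_ofHeightOneSpectrum] at hv
    have h2 : WithZero.log (w.valuation F (algebraMap K[X] F (X - C c))) < 0 := by linarith
    have h3 : w.valuation F (algebraMap K[X] F (X - C c)) ≠ 0 :=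
      (Valuation.ne_zero_iff _).mpr hne0
    rwa [← WithZero.log_one, WithZero.log_lt_log h3 one_ne_zero] at h2
  have hlt' : w.valuation F (algebraMap (ringOfIntegers K F) F
      (algebraMap K[X] (ringOfIntegers K F) (X - C c))) < 1 := by
    rwa [← IsScalarTower.algebraMap_apply]
  have hmem : algebraMap K[X] (ringOfIntegers K F) (X - C c) ∈ w.asIdeal :=
    (w.valuation_lt_one_iff_mem _).mp hlt'
  have hle : (Ideal.span {X - C c} : Ideal K[X]) ≤ w.asIdeal.under K[X] := by
    rw [Ideal.span_singleton_le_iff_mem]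
    exact hmem
  have hlies : w.asIdeal.LiesOver (Ideal.span {X - C c} : Ideal K[X]) := by
    refine ⟨?_⟩
    have hpr : (w.asIdeal.under K[X]).IsPrime := Ideal.IsPrime.under K[X] w.asIdeal
    exact hp.eq_of_le hpr.ne_top hle
  refine ⟨⟨w.asIdeal, w.isPrime, hlies⟩, ?_⟩
  rw [hw]
  rfl

theorem fundId_zerosOf_eq_range (c : K) :
    zerosOf K (algebraMap K[X] F (X - C c)) = Set.range (fundIdPlace (K := K) (F := F) c) := by
  ext v
  constructor
  · intro hv
    exact fundIdPlace_surjOn c v hv
  · rintro ⟨q, rfl⟩
    show 0 < (fundIdPlace c q).ord _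
    rw [fundIdPlace_ord]
    have := q.2.1
    exact_mod_cast Ideal.ramificationIdx_pos q.1 K[X]

/-- A2 core for `x - c`. -/
theorem sum_ord_zerosOf_X_sub_C (c : K) :
    (zerosOf K (algebraMap K[X] F (X - C c))).Finite ∧
      ∑ᶠ v ∈ zerosOf K (algebraMap K[X] F (X - C c)), v.ord (algebraMap K[X] F (X - C c))
        = (Module.finrank (RatFunc K) F : ℤ) := by
  have hfin : Finite ((Ideal.span {X - C c} : Ideal K[X]).primesOver (ringOfIntegers K F)) :=
    Algebra.QuasiFinite.finite_primesOver _
  have := Fintype.ofFinite ((Ideal.span {X - C c} : Ideal K[X]).primesOver (ringOfIntegers K F))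
  rw [fundId_zerosOf_eq_range]
  refine ⟨Set.finite_range _, ?_⟩
  rw [finsum_mem_range (fundIdPlace_injective c), finsum_eq_sum_of_fintype]
  simp_rw [fundIdPlace_ord]
  rw [← Nat.cast_sum, fundId_sum_ramificationIdx K F c]

theorem sum_ord_zerosOf_X :
    (zerosOf K (algebraMap K[X] F X)).Finite ∧
      ∑ᶠ v ∈ zerosOf K (algebraMap K[X] F X), v.ord (algebraMap K[X] F X)
        = (Module.finrank (RatFunc K) F : ℤ) := by
  have h := sum_ord_zerosOf_X_sub_C (K := K) (F := F) 0
  simpa using h

end PlaceForm

section ElementForm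

variable {K F : Type*} [Field K] [Field F] [Algebra K F] [IsAlgClosed K] [CharZero K]

theorem fundId_zeros_core {y : F} (hy : Transcendental K y) (hfin : FiniteDimensional K⟮y⟯ F) :
    (zerosOf K y).Finite ∧ ∑ᶠ v ∈ zerosOf K y, v.ord y = (Module.finrank K⟮y⟯ F : ℤ) := by
  obtain ⟨i1, i2, h1, h2, h3, h4, h5, h6⟩ := exists_ratFunc_instances hy hfin
  have h := sum_ord_zerosOf_X (K := K) (F := F)
  rw [h5, h6] at h
  exact h

omit [IsAlgClosed K] [CharZero K] in
theorem fundId_polesOf_eq (f : F) : polesOf K f = zerosOf K f⁻¹ := by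
  ext v
  show v.ord f < 0 ↔ 0 < v.ord f⁻¹
  rw [Place.ord_inv]
  omega

omit [IsAlgClosed K] [CharZero K] in
theorem fundId_zerosOf_const (a : K) : zerosOf K (algebraMap K F a) = ∅ := by
  ext v
  show 0 < v.ord _ ↔ False
  rw [DiffOrd.ord_algebraMap]
  simp

theorem zerosOf_finite (hF : IsFF1 K F) {f : F} (hf : f ≠ 0) : (zerosOf K f).Finite := by
  by_cases hc : f ∈ Set.range (algebraMap K F)
  · obtain ⟨a, rfl⟩ := hc
    rw [fundId_zerosOf_const]
    exact Set.finite_empty
  · have ht := transcendental_of_not_mem_range hc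
    exact (fundId_zeros_core ht (hF.finiteDimensional ht)).1

theorem polesOf_finite (hF : IsFF1 K F) {f : F} (hf : f ≠ 0) : (polesOf K f).Finite := by
  rw [fundId_polesOf_eq]
  exact zerosOf_finite hF (inv_ne_zero hf)

/-- A2, element form. -/
theorem sum_ord_zerosOf (hF : IsFF1 K F) {y : F} (hy : Transcendental K y) :
    ∑ᶠ v ∈ zerosOf K y, v.ord y = (Module.finrank K⟮y⟯ F : ℤ) :=
  (fundId_zeros_core hy (hF.finiteDimensional hy)).2

omit [IsAlgClosed K] [CharZero K] in
theorem fundId_transcendental_inv {y : F} (hy : Transcendental K y) : Transcendental K y⁻¹ := by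
  intro h
  exact hy (IsAlgebraic.inv_iff.mp h)

theorem sum_ord_polesOf (hF : IsFF1 K F) {y : F} (hy : Transcendental K y) :
    ∑ᶠ v ∈ polesOf K y, v.ord y = -(Module.finrank K⟮y⟯ F : ℤ) := by
  have hy' := fundId_transcendental_inv hy
  have h := sum_ord_zerosOf hF hy'
  rw [finrank_adjoin_inv] at h
  rw [fundId_polesOf_eq, ← h, ← finsum_mem_neg_distrib]
  · refine finsum_mem_congr rfl fun v _ => ?_
    rw [Place.ord_inv, neg_neg]
  · exact zerosOf_finite hF (inv_ne_zero (fun h0 => hy (h0 ▸ isAlgebraic_zero)))

theorem ord_support_finite (hF : IsFF1 K F) {f : F} (hf : f ≠ 0) :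
    {v : Place K F | v.ord f ≠ 0}.Finite := by
  refine ((zerosOf_finite hF hf).union (polesOf_finite hF hf)).subset ?_
  intro v hv
  rcases lt_or_gt_of_ne hv with h | h
  · exact Or.inr h
  · exact Or.inl h

/-- A6: principal divisors have degree zero. -/
theorem sum_ord_eq_zero (hF : IsFF1 K F) {f : F} (hf : f ≠ 0) :
    ∑ᶠ v : Place K F, v.ord f = 0 := by
  by_cases hc : f ∈ Set.range (algebraMap K F)
  · obtain ⟨a, rfl⟩ := hc
    exact finsum_eq_zero_of_forall_eq_zero fun v => DiffOrd.ord_algebraMap v a
  · have ht := transcendental_of_not_mem_range hc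
    have hsub : Function.support (fun v : Place K F => v.ord f) ⊆ zerosOf K f ∪ polesOf K f := by
      intro v hv
      rcases lt_or_gt_of_ne (Function.mem_support.mp hv) with h | h
      · exact Or.inr h
      · exact Or.inl h
    have hdisj : Disjoint (zerosOf K f) (polesOf K f) := by
      rw [Set.disjoint_left]
      intro v h1 h2
      have h1' : 0 < v.ord f := h1
      have h2' : v.ord f < 0 := h2
      exact lt_asymm h1' h2'
    rw [← finsum_mem_univ, finsum_mem_inter_support_eq' _ Set.univ (zerosOf K f ∪ polesOf K f)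
        (fun x hx => ⟨fun _ => hsub hx, fun _ => trivial⟩),
      finsum_mem_union hdisj (zerosOf_finite hF hf) (polesOf_finite hF hf),
      sum_ord_zerosOf hF ht, sum_ord_polesOf hF ht, add_neg_cancel]

end ElementForm

end Fermat.Agent.S24.FF
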