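import Mathlib
import Fermat.Agent.S24.FF.FundId
import Fermat.Agent.S24.FF.PlaceA1
import Fermat.Agent.S24.FF.EssFinite
import Fermat.Agent.S24.FF.DiffOrd
import Fermat.Agent.S24.FF.KaehlerRank

/-! # S24 layer (A), file A7: Riemann–Hurwitz in prelude terms, and the prelude genus. -/

set_option autoImplicit false

namespace Fermat.Agent.S24.FF

open AlgebraicCurve Polynomial IntermediateField KaehlerDifferential

variable {K F : Type*} [Field K] [Field F] [Algebra K F] [IsAlgClosed K] [CharZero K]

/-- degree of a divisor when all places have degree one -/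
theorem degree_eq_finsum (hF : IsFF1 K F) (D : Divisor K F) :
    Divisor.degree D = ∑ᶠ v : Place K F, D v := by
  classical
  have h1 : Divisor.degree D = D.sum fun _ n => n := by
    induction D using Finsupp.induction with
    | zero => simp
    | single_add v n D hv hn ih =>
        rw [map_add, ih, Divisor.degree_single, deg_eq_one hF v, Nat.cast_one, mul_one,
          Finsupp.sum_add_index' (fun _ => rfl) (fun _ _ _ => rfl), Finsupp.sum_single_index rfl]
  rw [h1, Finsupp.sum]
  exact (finsum_eq_sum_of_support_subset _ (by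
    intro v hv
    simpa [Function.mem_support, Finsupp.mem_support_iff] using hv)).symm

theorem algebraic_of_isFF1_adjoin (hF : IsFF1 K F) {x : F} (hx : Transcendental K x) :
    Algebra.IsAlgebraic K⟮x⟯ F := by
  have := hF.finiteDimensional hx
  exact Algebra.IsAlgebraic.of_finite K⟮x⟯ F

theorem nontrivial_kaehler' (hF : IsFF1 K F) : Nontrivial Ω[F⁄K] := by
  obtain ⟨x, hx, hfin⟩ := hF
  have := hfin
  have : Algebra.IsAlgebraic K⟮x⟯ F := Algebra.IsAlgebraic.of_finite K⟮x⟯ F
  exact nontrivial_kaehler hx

/-- a pole of `x` is not a zero of `x - c` -/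
theorem not_mem_zerosOf_of_mem_polesOf {x : F} (c : K)
    {v : Place K F} (hv : v ∈ polesOf K x) : v ∉ zerosOf K (x - algebraMap K F c) := by
  intro hz
  have hv' : v.ord x < 0 := hv
  have hx0 : x ≠ 0 := fun h => by
    rw [h, v.ord_zero] at hv'; exact lt_irrefl _ hv'
  have hz' : 0 < v.ord (x - algebraMap K F c) := hz
  rcases eq_or_ne c 0 with rfl | hc
  · rw [map_zero, sub_zero] at hz'
    omega
  have hc' : -algebraMap K F c ≠ 0 := neg_ne_zero.mpr (by simpa using hc)
  have h1 : v.ord (x + -algebraMap K F c) = v.ord x := by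
    apply ord_add_eq_of_lt v hx0 hc'
    rw [ord_neg, ord_algebraMap]
    exact hv'
  rw [sub_eq_add_neg, h1] at hz'
  omega

/-- every place is a pole of `x` or a zero of exactly one `x - c`. -/
theorem pole_or_exists_unique_zero (hF : IsFF1 K F) {x : F} (hx : Transcendental K x)
    (v : Place K F) : v ∈ polesOf K x ∨ ∃! c : K, v ∈ zerosOf K (x - algebraMap K F c) := by
  by_cases hv : v.ord x < 0
  · exact Or.inl hv
  · right
    obtain ⟨c, hc⟩ := DiffOrd.exists_ord_sub_pos v (residue_surjective hF v) (not_lt.mp hv)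
    rcases hc with hc | hc
    · exfalso
      apply hx
      rw [hc]
      exact isAlgebraic_algebraMap c
    · exact ⟨c, hc, fun c' hc' => DiffOrd.eq_of_ord_sub_pos v hc' hc⟩

/-- the local contribution of `h • dx` at a pole of `x` -/
theorem ordDifferential_smul_D_of_pole (hF : IsFF1 K F) {x : F} {v : Place K F}
    (hv : v ∈ polesOf K x) {h : F} (hh : h ≠ 0) :
    v.ordDifferential (h • D K F x) = v.ord h + v.ord x - 1 := by
  have := essFiniteType hF v
  have := nontrivial_kaehler' hF
  exact DiffOrd.ordDifferential_smul_D_of_ord_ne_zero v (residue_surjective hF v) hh (ne_of_lt hv)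

/-- the local contribution of `h • dx` at a zero of `x - c` -/
theorem ordDifferential_smul_D_of_zero (hF : IsFF1 K F) {x : F} {c : K} {v : Place K F}
    (hv : v ∈ zerosOf K (x - algebraMap K F c)) {h : F} (hh : h ≠ 0) :
    v.ordDifferential (h • D K F x) = v.ord h + v.ord (x - algebraMap K F c) - 1 := by
  have := essFiniteType hF v
  have := nontrivial_kaehler' hF
  exact DiffOrd.ordDifferential_smul_D_sub v (residue_surjective hF v) hh x c (ne_of_gt hv)


theorem transcendental_sub_const {x : F} (hx : Transcendental K x) (c : K) :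
    Transcendental K (x - algebraMap K F c) := by
  intro h
  apply hx
  have : x = (x - algebraMap K F c) + algebraMap K F c := by ring
  rw [this]
  exact h.add (isAlgebraic_algebraMap c)

theorem sub_const_ne_zero {x : F} (hx : Transcendental K x) (c : K) :
    x - algebraMap K F c ≠ 0 := by
  intro h
  apply transcendental_sub_const hx c
  rw [h]
  exact isAlgebraic_zero

/-- the zero sets of `x - c`, `c ∈ K`, are pairwise disjoint -/
theorem zerosOf_disjoint {x : F} {c c' : K} (hcc : c ≠ c') :
    Disjoint (zerosOf K (x - algebraMap K F c)) (zerosOf K (x - algebraMap K F c')) := by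
  rw [Set.disjoint_left]
  intro v hv hv'
  exact hcc (DiffOrd.eq_of_ord_sub_pos v hv hv')

/-- sum of `ord y - 1` over the zeros of a transcendental `y` -/
theorem sum_zerosOf_sub_one (hF : IsFF1 K F) {y : F} (hy : Transcendental K y)
    (hfin : (zerosOf K y).Finite) :
    ∑ v ∈ hfin.toFinset, (v.ord y - 1) =
      (Module.finrank K⟮y⟯ F : ℤ) - ((zerosOf K y).ncard : ℤ) := by
  rw [Finset.sum_sub_distrib, ← sum_ord_zerosOf hF hy, finsum_mem_eq_finite_toFinset_sum _ hfin,
    Set.ncard_eq_toFinset_card _ hfin]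
  simp

/-- sum of `ord y - 1` over the poles of a transcendental `y` -/
theorem sum_polesOf_sub_one (hF : IsFF1 K F) {y : F} (hy : Transcendental K y)
    (hfin : (polesOf K y).Finite) :
    ∑ v ∈ hfin.toFinset, (v.ord y - 1) =
      -(Module.finrank K⟮y⟯ F : ℤ) - ((polesOf K y).ncard : ℤ) := by
  rw [Finset.sum_sub_distrib, ← sum_ord_polesOf hF hy, finsum_mem_eq_finite_toFinset_sum _ hfin,
    Set.ncard_eq_toFinset_card _ hfin]
  simp


/-- A7 core: Riemann–Hurwitz for `h • dx`, `h ≠ 0`. -/
theorem sum_ordDifferential_smul_D (hF : IsFF1 K F) {x : F} (hx : Transcendental K x)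
    (Br : Finset K)
    (hunr : ∀ c : K, c ∉ Br → ∀ v ∈ zerosOf K (x - algebraMap K F c),
      v.ord (x - algebraMap K F c) = 1) {h : F} (hh : h ≠ 0) :
    {v : Place K F | v.ordDifferential (h • D K F x) ≠ 0}.Finite ∧
    ∑ᶠ v : Place K F, v.ordDifferential (h • D K F x) =
      ∑ c ∈ Br, ((Module.finrank K⟮x⟯ F : ℤ) - ((zerosOf K (x - algebraMap K F c)).ncard : ℤ))
        - (Module.finrank K⟮x⟯ F : ℤ) - ((polesOf K x).ncard : ℤ) := by
  classical
  have hx0 : x ≠ 0 := fun h0 => hx (h0 ▸ isAlgebraic_zero)
  have hP : (polesOf K x).Finite := polesOf_finite hF hx0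
  have hZ : ∀ c : K, (zerosOf K (x - algebraMap K F c)).Finite :=
    fun c => zerosOf_finite hF (sub_const_ne_zero hx c)
  have hS : {v : Place K F | v.ord h ≠ 0}.Finite := ord_support_finite hF hh
  set T : Finset (Place K F) := hP.toFinset ∪ Br.biUnion (fun c => (hZ c).toFinset) with hT
  set ε : Place K F → ℤ := fun v => v.ordDifferential (h • D K F x) - v.ord h with hε
  have key1 : ∀ v ∈ polesOf K x, ε v = v.ord x - 1 := by
    intro v hv
    simp only [hε]
    rw [ordDifferential_smul_D_of_pole hF hv hh]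
    ring
  have key2 : ∀ c : K, ∀ v ∈ zerosOf K (x - algebraMap K F c),
      ε v = v.ord (x - algebraMap K F c) - 1 := by
    intro c v hv
    simp only [hε]
    rw [ordDifferential_smul_D_of_zero hF hv hh]
    ring
  have key3 : ∀ v : Place K F, v ∉ T → ε v = 0 := by
    intro v hv
    rcases pole_or_exists_unique_zero hF hx v with hp | ⟨c, hc, -⟩
    · exfalso
      apply hv
      rw [hT, Finset.mem_union]
      exact Or.inl ((Set.Finite.mem_toFinset hP).mpr hp)
    · have hcBr : c ∉ Br := by
        intro hcBr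
        apply hv
        rw [hT, Finset.mem_union]
        right
        rw [Finset.mem_biUnion]
        exact ⟨c, hcBr, (Set.Finite.mem_toFinset (hZ c)).mpr hc⟩
      rw [key2 c v hc, hunr c hcBr v hc]
      ring
  have hsuppε : Function.support ε ⊆ (T : Set (Place K F)) := by
    intro v hv
    by_contra hvT
    exact hv (key3 v hvT)
  have hεfin : (Function.support ε).Finite := T.finite_toSet.subset hsuppε
  have hordfin : (Function.support fun v : Place K F => v.ord h).Finite := hS
  have hdecomp : (fun v : Place K F => v.ordDifferential (h • D K F x)) =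
      fun v => v.ord h + ε v := by
    funext v
    simp only [hε]
    ring
  refine ⟨?_, ?_⟩
  · apply (hS.union hεfin).subset
    intro v hv
    by_contra hnot
    rw [Set.mem_union, not_or] at hnot
    apply hv
    have h1 : v.ord h = 0 := by
      by_contra h1
      exact hnot.1 h1
    have h2 : ε v = 0 := by
      by_contra h2
      exact hnot.2 h2
    have h3 : v.ordDifferential (h • D K F x) = v.ord h + ε v := congrFun hdecomp v
    rw [h3, h1, h2, add_zero]
  · rw [hdecomp, finsum_add_distrib hordfin hεfin, sum_ord_eq_zero hF hh, zero_add,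
      finsum_eq_sum_of_support_subset _ hsuppε, hT]
    have hdisj : Disjoint hP.toFinset (Br.biUnion fun c => (hZ c).toFinset) := by
      rw [Finset.disjoint_left]
      intro v hv hv'
      rw [Finset.mem_biUnion] at hv'
      obtain ⟨c, -, hc⟩ := hv'
      exact not_mem_zerosOf_of_mem_polesOf c ((Set.Finite.mem_toFinset hP).mp hv)
        ((Set.Finite.mem_toFinset (hZ c)).mp hc)
    rw [Finset.sum_union hdisj]
    have hpair : (Br : Set K).PairwiseDisjoint fun c => (hZ c).toFinset := by
      intro c _ c' _ hcc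
      rw [Function.onFun, Finset.disjoint_left]
      intro v hv hv'
      exact hcc (DiffOrd.eq_of_ord_sub_pos v ((Set.Finite.mem_toFinset (hZ c)).mp hv)
        ((Set.Finite.mem_toFinset (hZ c')).mp hv'))
    rw [Finset.sum_biUnion hpair]
    have hsumP : ∑ v ∈ hP.toFinset, ε v =
        -(Module.finrank K⟮x⟯ F : ℤ) - ((polesOf K x).ncard : ℤ) := by
      rw [← sum_polesOf_sub_one hF hx hP]
      apply Finset.sum_congr rfl
      intro v hv
      exact key1 v ((Set.Finite.mem_toFinset hP).mp hv)
    have hsumZ : ∀ c ∈ Br, ∑ v ∈ (hZ c).toFinset, ε v =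
        (Module.finrank K⟮x⟯ F : ℤ) - ((zerosOf K (x - algebraMap K F c)).ncard : ℤ) := by
      intro c _
      rw [← finrank_adjoin_sub_const x c,
        ← sum_zerosOf_sub_one hF (transcendental_sub_const hx c) (hZ c)]
      apply Finset.sum_congr rfl
      intro v hv
      exact key2 c v ((Set.Finite.mem_toFinset (hZ c)).mp hv)
    rw [hsumP, Finset.sum_congr rfl hsumZ]
    ring

/-- A7: Riemann–Hurwitz for EVERY nonzero differential. -/
theorem degree_canonicalDivisorOf (hF : IsFF1 K F) [HasCanonicalDivisor (K := K) (F := F)]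
    {x : F} (hx : Transcendental K x) (Br : Finset K)
    (hunr : ∀ c : K, c ∉ Br → ∀ v ∈ zerosOf K (x - algebraMap K F c),
      v.ord (x - algebraMap K F c) = 1)
    {ω : Ω[F⁄K]} (hω : ω ≠ 0) :
    Divisor.degree (canonicalDivisorOf hω) =
      ∑ c ∈ Br, ((Module.finrank K⟮x⟯ F : ℤ) - ((zerosOf K (x - algebraMap K F c)).ncard : ℤ))
        - (Module.finrank K⟮x⟯ F : ℤ) - ((polesOf K x).ncard : ℤ) := by
  have halg := algebraic_of_isFF1_adjoin hF hx
  obtain ⟨h, rfl⟩ := exists_eq_smul_D x ω
  have hh : h ≠ 0 := by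
    rintro rfl
    exact hω (zero_smul _ _)
  rw [degree_eq_finsum hF, ← (sum_ordDifferential_smul_D hF hx Br hunr hh).2]
  apply finsum_congr
  intro v
  exact canonicalDivisorOf_apply hω v

/-- A7: the prelude genus. -/
theorem genus_eq (hF : IsFF1 K F) [HasCanonicalDivisor (K := K) (F := F)]
    {x : F} (hx : Transcendental K x) (Br : Finset K)
    (hunr : ∀ c : K, c ∉ Br → ∀ v ∈ zerosOf K (x - algebraMap K F c),
      v.ord (x - algebraMap K F c) = 1)
    (g : ℕ)
    (hg : 2 * (g : ℤ) - 2 =
      ∑ c ∈ Br, ((Module.finrank K⟮x⟯ F : ℤ) - ((zerosOf K (x - algebraMap K F c)).ncard : ℤ))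
        - (Module.finrank K⟮x⟯ F : ℤ) - ((polesOf K x).ncard : ℤ)) :
    genus K F = g := by
  have hnt := nontrivial_kaehler' hF
  have hex : ∃ ω : Ω[F⁄K], ω ≠ 0 := exists_ne 0
  unfold genus
  rw [dif_pos hex, degree_canonicalDivisorOf hF hx Br hunr hex.choose_spec, ← hg]
  have : (2 * (g : ℤ) - 2 + 2).toNat = 2 * g := by
    have h2 : (2 * (g : ℤ) - 2 + 2) = ((2 * g : ℕ) : ℤ) := by push_cast; ring
    rw [h2, Int.toNat_natCast]
  rw [this]
  omega

end Fermat.Agent.S24.FF
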