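import Mathlib
import Fermat.Agent.S24.FF.FundId
import Fermat.Agent.S24.FF.DiffOrd
import Fermat.Agent.S24.FF.PlaceA1
import Fermat.Agent.S24.FF.KaehlerRank

/-! # S24 layer (A), file A7 (part): from `div(dx)` to every differential, and the prelude genus.

The two inputs `Divisor.degree D = ∑ᶠ v, D v` and `∑ᶠ v, v.ordDifferential (dx) = R` are taken as
hypotheses (they are proved in `RH.lean` / `RHSum.lean`). -/

set_option autoImplicit false

namespace Fermat.Agent.S24.FF

open AlgebraicCurve Polynomial IntermediateField KaehlerDifferential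

variable {K F : Type*} [Field K] [Field F] [Algebra K F] [IsAlgClosed K] [CharZero K]

/-- In a function field in one variable every place satisfies `DCoordGenerates`. -/
theorem dCoordGenerates_of_isFF1 (hF : IsFF1 K F) (v : Place K F) : v.DCoordGenerates := by
  have := essFiniteType hF v
  exact DiffOrd.dCoordGenerates v (residue_surjective hF v)

omit [IsAlgClosed K] [CharZero K] in
/-- `F` is algebraic over `K(x)` for every transcendental `x`. -/
theorem isAlgebraic_adjoin_of_isFF1 (hF : IsFF1 K F) {x : F} (hx : Transcendental K x) :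
    Algebra.IsAlgebraic K⟮x⟯ F := by
  have := hF.finiteDimensional hx
  exact Algebra.IsAlgebraic.of_finite K⟮x⟯ F

/-- The order of `f • dx` at a place. -/
theorem ordDifferential_smul_D_of_isFF1 (hF : IsFF1 K F) {x : F} (hx : Transcendental K x)
    (v : Place K F) {f : F} (hf : f ≠ 0) :
    v.ordDifferential (f • D K F x) = v.ord f + v.ordDifferential (D K F x) := by
  have := isAlgebraic_adjoin_of_isFF1 hF hx
  have := dCoordGenerates_of_isFF1 hF v
  have : Nontrivial Ω[F⁄K] := nontrivial_kaehler hx
  refine v.ordDifferential_smul hf ?_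
  intro h0
  have h1 := v.differentialCoeff_smul_dCoord (D K F x)
  rw [h0, zero_smul] at h1
  exact D_ne_zero hx h1.symm

/-- A7 (second half): if `div(dx)` has finite support and degree `R`, then the canonical divisor of
EVERY nonzero differential has degree `R`. -/
theorem degree_canonicalDivisorOf_of_sum (hF : IsFF1 K F) [HasCanonicalDivisor (K := K) (F := F)]
    (hdeg : ∀ D : Divisor K F, Divisor.degree D = ∑ᶠ v : Place K F, D v)
    {x : F} (hx : Transcendental K x) (R : ℤ)
    (hfin : {v : Place K F | v.ordDifferential (D K F x) ≠ 0}.Finite)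
    (hsum : ∑ᶠ v : Place K F, v.ordDifferential (D K F x) = R)
    {ω : Ω[F⁄K]} (hω : ω ≠ 0) :
    Divisor.degree (canonicalDivisorOf hω) = R := by
  have := isAlgebraic_adjoin_of_isFF1 hF hx
  obtain ⟨f, hf⟩ := exists_eq_smul_D x ω
  have hf0 : f ≠ 0 := by
    rintro rfl
    rw [zero_smul] at hf
    exact hω hf
  rw [hdeg]
  have h1 : ∀ v : Place K F, canonicalDivisorOf hω v =
      v.ord f + v.ordDifferential (D K F x) := by
    intro v
    rw [canonicalDivisorOf_apply, hf, ordDifferential_smul_D_of_isFF1 hF hx v hf0]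
  rw [finsum_congr h1, finsum_add_distrib, sum_ord_eq_zero hF hf0, zero_add, hsum]
  · exact ord_support_finite hF hf0
  · exact hfin

/-- A7 (genus): if moreover `R = 2 g - 2`, the prelude genus is `g`. -/
theorem genus_eq_of_sum (hF : IsFF1 K F) [HasCanonicalDivisor (K := K) (F := F)]
    (hdeg : ∀ D : Divisor K F, Divisor.degree D = ∑ᶠ v : Place K F, D v)
    {x : F} (hx : Transcendental K x) (R : ℤ)
    (hfin : {v : Place K F | v.ordDifferential (D K F x) ≠ 0}.Finite)
    (hsum : ∑ᶠ v : Place K F, v.ordDifferential (D K F x) = R)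
    (g : ℕ) (hg : 2 * (g : ℤ) - 2 = R) :
    genus K F = g := by
  have := isAlgebraic_adjoin_of_isFF1 hF hx
  have hex : ∃ ω : Ω[F⁄K], ω ≠ 0 := ⟨D K F x, D_ne_zero hx⟩
  unfold genus
  rw [dif_pos hex, degree_canonicalDivisorOf_of_sum hF hdeg hx R hfin hsum, ← hg]
  have : (2 * (g : ℤ) - 2 + 2).toNat = 2 * g := by
    rw [sub_add_cancel]
    omega
  rw [this]
  omega

end Fermat.Agent.S24.FF
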