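import Mathlib
import Fermat.Agent.S24.FF.RH

/-! # S24 layer (A), complement: the prelude class `HasCanonicalDivisor` for function fields
with a finite branch locus.

In S24 the class is a hypothesis of the frozen statement; for S20 (constant field `ℂ`) it has to be
proved.  It follows from the finiteness clause of `sum_ordDifferential_smul_D`. -/

set_option autoImplicit false

namespace Fermat.Agent.S24.FF

open AlgebraicCurve Polynomial IntermediateField KaehlerDifferential

variable {K F : Type*} [Field K] [Field F] [Algebra K F] [IsAlgClosed K] [CharZero K]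

/-- finiteness of the support of the divisor of a nonzero differential -/
theorem finite_ordDifferential_ne_zero (hF : IsFF1 K F) {x : F} (hx : Transcendental K x)
    (Br : Finset K)
    (hunr : ∀ c : K, c ∉ Br → ∀ v ∈ zerosOf K (x - algebraMap K F c),
      v.ord (x - algebraMap K F c) = 1)
    {ω : Ω[F⁄K]} (hω : ω ≠ 0) :
    {v : Place K F | v.ordDifferential ω ≠ 0}.Finite := by
  have halg := algebraic_of_isFF1_adjoin hF hx
  obtain ⟨h, rfl⟩ := exists_eq_smul_D x ω
  have hh : h ≠ 0 := by
    rintro rfl
    exact hω (zero_smul _ _)
  exact (sum_ordDifferential_smul_D hF hx Br hunr hh).1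

/-- A function field with a finite branch locus over `K(x)` has canonical divisors in the
sense of the prelude. -/
theorem hasCanonicalDivisor_of_unramified (hF : IsFF1 K F) {x : F} (hx : Transcendental K x)
    (Br : Finset K)
    (hunr : ∀ c : K, c ∉ Br → ∀ v ∈ zerosOf K (x - algebraMap K F c),
      v.ord (x - algebraMap K F c) = 1) :
    HasCanonicalDivisor (K := K) (F := F) := by
  classical
  refine ⟨fun ω hω => ?_⟩
  have hfin := finite_ordDifferential_ne_zero hF hx Br hunr hω
  refine ⟨Finsupp.ofSupportFinite (fun v : Place K F => v.ordDifferential ω) ?_, fun v => ?_⟩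
  · exact hfin
  · rfl

end Fermat.Agent.S24.FF
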